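import Mathlib.Algebra.BigOperators.Fin
import Mathlib.Analysis.SpecialFunctions.Log.Basic
import Mathlib.Data.Fintype.Pi
import Mathlib.Data.Nat.Factorization.Basic

/-!
# Exponents giving a large common divisor

`N - 2 ^ a` is divisible by a given odd prime for at most half of the `a ≤ L`; and it shares more than `D` with
`r` for at most `T (L / w + 1)` of them, when `D ^ T > r 2 ^ (w T ^ 2)`: two such `a` would otherwise share a
large divisor, which divides `2 ^ (b - a) - 1`.
-/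

set_option autoImplicit false
set_option linter.unusedSectionVars false

noncomputable section

open Finset
open scoped Classical

namespace FA.LinnikPowersTwo

/-- At most half are divisible by an odd prime. -/
theorem card_dvd_sub_le {N p : ℕ} (hp : p.Prime) (hp2 : p ≠ 2) (L : ℕ) (hN : ∀ a ≤ L, 2 ^ a ≤ N) :
    ((Icc 1 L).filter fun a => p ∣ N - 2 ^ a).card ≤ L / 2 + 1 := by
  refine (card_le_card_of_injOn (t := range (L / 2 + 1)) (fun a => a / 2) (fun a ha => ?_) ?_).trans
    (card_range _).le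
  · simp only [mem_coe, mem_filter, mem_Icc, mem_range] at ha ⊢
    omega
  · intro a ha b hb h
    simp only [mem_coe, mem_filter, mem_Icc] at ha hb h
    have key : ∀ c, c + 1 ≤ L → p ∣ N - 2 ^ c → p ∣ N - 2 ^ (c + 1) → False := fun c hc h1 h2 => by
      have e : (N - 2 ^ c) - (N - 2 ^ (c + 1)) = 2 ^ c := by
        have := hN (c + 1) hc
        rw [pow_succ] at this ⊢
        omega
      exact hp2 ((Nat.prime_dvd_prime_iff_eq hp Nat.prime_two).1 (hp.dvd_of_dvd_pow (e ▸ Nat.dvd_sub h1 h2)))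
    rcases (show a = b ∨ b = a + 1 ∨ a = b + 1 by omega) with h' | h' | h'
    · exact h'
    · subst h'
      exact (key a hb.1.2 ha.2 hb.2).elim
    · subst h'
      exact (key b ha.1.2 hb.2 ha.2).elim

theorem gcd_prod_dvd (m : ℕ) (d : ℕ → ℕ) (S : Finset ℕ) : Nat.gcd m (∏ a ∈ S, d a) ∣ ∏ a ∈ S, Nat.gcd m (d a) := by
  induction S using Finset.induction_on with
  | empty => simp
  | insert x S hx ih =>
    rw [prod_insert hx, prod_insert hx]
    exact (Nat.gcd_mul_right_dvd_mul_gcd m _ _).trans (mul_dvd_mul_left _ ih)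

/-- Divisors of `r` multiply to at most `r` times their common divisors. -/
theorem exists_lcm_bound {r : ℕ} (d : ℕ → ℕ) {G : ℕ} (hG1 : 1 ≤ G) (S : Finset ℕ) (hd : ∀ a ∈ S, d a ∣ r)
    (hd0 : ∀ a ∈ S, 0 < d a) (hG : ∀ a ∈ S, ∀ b ∈ S, a ≠ b → Nat.gcd (d a) (d b) ≤ G) :
    ∃ l : ℕ, l ∣ r ∧ l ∣ ∏ a ∈ S, d a ∧ ∏ a ∈ S, d a ≤ l * G ^ (S.card * S.card) := by
  induction S using Finset.induction_on with
  | empty => exact ⟨1, one_dvd r, one_dvd _, by simp⟩
  | insert x S hx ih =>
    obtain ⟨l, hlr, hlP, hle⟩ := ih (fun a ha => hd a (mem_insert_of_mem ha))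
      (fun a ha => hd0 a (mem_insert_of_mem ha)) fun a ha b hb => hG a (mem_insert_of_mem ha) b (mem_insert_of_mem hb)
    have hxd := hd x (mem_insert_self x S)
    refine ⟨Nat.lcm l (d x), Nat.lcm_dvd hlr hxd, ?_, ?_⟩
    · rw [prod_insert hx]
      exact Nat.lcm_dvd (dvd_mul_of_dvd_right hlP _) (dvd_mul_right _ _)
    have hgcd : Nat.gcd (d x) l ≤ G ^ S.card := by
      refine (Nat.le_of_dvd ?_ ((Nat.gcd_dvd_gcd_of_dvd_right _ hlP).trans (gcd_prod_dvd (d x) d S))).trans ?_
      · exact prod_pos fun a _ => Nat.gcd_pos_of_pos_left _ (hd0 x (mem_insert_self x S))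
      · exact (prod_le_prod (fun a _ => Nat.zero_le _) fun a ha => hG x (mem_insert_self x S) a
          (mem_insert_of_mem ha) fun h => hx (h ▸ ha)).trans_eq (prod_const G)
    rw [prod_insert hx, card_insert_of_notMem hx]
    calc d x * ∏ a ∈ S, d a ≤ d x * (l * G ^ (S.card * S.card)) := Nat.mul_le_mul_left _ hle
      _ = Nat.gcd l (d x) * Nat.lcm l (d x) * G ^ (S.card * S.card) := by rw [Nat.gcd_mul_lcm]; ring
      _ ≤ G ^ S.card * Nat.lcm l (d x) * G ^ (S.card * S.card) :=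
          Nat.mul_le_mul_right _ (Nat.mul_le_mul_right _ (by rw [Nat.gcd_comm]; exact hgcd))
      _ = Nat.lcm l (d x) * G ^ (S.card + S.card * S.card) := by rw [pow_add]; ring
      _ ≤ Nat.lcm l (d x) * G ^ ((S.card + 1) * (S.card + 1)) :=
          Nat.mul_le_mul_left _ (Nat.pow_le_pow_right hG1 (by nlinarith))

/-- **Few exponents share much with `r`.** -/
theorem card_gcd_large_le {N r L T w : ℕ} {D : ℝ} (hr : 0 < r) (hodd : Odd r) (hw : 0 < w) (hD : 1 ≤ D)
    (hN : ∀ a ≤ L, 2 ^ a < N) (hbig : (r : ℝ) * (2 : ℝ) ^ (w * (T * T)) < D ^ T) :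
    ((Icc 1 L).filter fun a => D < (Nat.gcd (N - 2 ^ a) r : ℝ)).card ≤ T * (L / w + 1) := by
  refine (card_le_mul_card_image (f := fun a => a / w) _ T fun c _ => ?_).trans (Nat.mul_le_mul_left T ?_)
  · by_contra hlt
    obtain ⟨S, hS, hcard⟩ := exists_subset_card_eq (not_le.1 hlt).le
    obtain ⟨d, hd⟩ : ∃ d : ℕ → ℕ, d = fun a => Nat.gcd (N - 2 ^ a) r := ⟨_, rfl⟩
    have hmem : ∀ a ∈ S, a ≤ L ∧ a / w = c ∧ D < (d a : ℝ) := fun a ha => by
      have h1 := hS ha
      rw [mem_filter, mem_filter, mem_Icc] at h1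
      exact ⟨h1.1.1.2, h1.2, hd ▸ h1.1.2⟩
    have hd0 : ∀ a, 0 < d a := fun a => hd ▸ Nat.gcd_pos_of_pos_right _ hr
    have hG : ∀ a ∈ S, ∀ b ∈ S, a ≠ b → Nat.gcd (d a) (d b) ≤ 2 ^ w := by
      intro a ha b hb hne
      wlog hab : a < b generalizing a b
      · rw [Nat.gcd_comm]
        exact this b hb a ha hne.symm (by omega)
      obtain ⟨haL, hac, -⟩ := hmem a ha
      obtain ⟨hbL, hbc, -⟩ := hmem b hb
      obtain ⟨g, hg⟩ : ∃ g, g = Nat.gcd (d a) (d b) := ⟨_, rfl⟩
      rw [← hg]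
      have hga : g ∣ N - 2 ^ a := hg ▸ hd ▸ (Nat.gcd_dvd_left _ _).trans (Nat.gcd_dvd_left _ _)
      have hgb : g ∣ N - 2 ^ b := hg ▸ hd ▸ (Nat.gcd_dvd_right _ _).trans (Nat.gcd_dvd_left _ _)
      have hgr : g ∣ r := hg ▸ hd ▸ (Nat.gcd_dvd_left _ _).trans (Nat.gcd_dvd_right _ _)
      have hw' : b - a ≤ w := by
        have h1 := Nat.div_add_mod a w
        have h2 := Nat.div_add_mod b w
        have := Nat.mod_lt b hw
        rw [hac] at h1
        rw [hbc] at h2
        omega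
      have hpow : 2 ^ b = 2 ^ a * 2 ^ (b - a) := by rw [← pow_add, Nat.add_sub_cancel' hab.le]
      have hdvd : g ∣ 2 ^ a * (2 ^ (b - a) - 1) := by
        have h3 := Nat.dvd_sub hga hgb
        have e : (N - 2 ^ a) - (N - 2 ^ b) = 2 ^ a * (2 ^ (b - a) - 1) := by
          rw [Nat.mul_sub, ← hpow, mul_one]
          have := hN b hbL
          have := hN a haL
          have := Nat.pow_le_pow_right (n := 2) two_pos hab.le
          omega
        rwa [e] at h3
      have hcop : g.Coprime (2 ^ a) := Nat.Coprime.pow_right _ (Nat.Coprime.coprime_dvd_left hgr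
        (Nat.coprime_two_right.2 hodd))
      have hpos : 0 < 2 ^ (b - a) - 1 := by
        have := Nat.one_lt_two_pow (n := b - a) (by omega)
        omega
      exact (Nat.le_of_dvd hpos (hcop.dvd_of_dvd_mul_left hdvd)).trans
        ((Nat.sub_le _ _).trans (Nat.pow_le_pow_right two_pos hw'))
    obtain ⟨l, hlr, -, hle⟩ := exists_lcm_bound d Nat.one_le_two_pow S
      (fun a _ => by rw [hd]; exact Nat.gcd_dvd_right _ r) (fun a _ => hd0 a) hG
    rw [hcard] at hle
    have h1 : ((∏ a ∈ S, d a : ℕ) : ℝ) ≤ (r : ℝ) * (2 : ℝ) ^ (w * (T * T)) := by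
      refine (Nat.cast_le.2 (hle.trans (Nat.mul_le_mul_right _ (Nat.le_of_dvd hr hlr)))).trans (le_of_eq ?_)
      push_cast
      simp only [← pow_mul]
    have h2 : D ^ T ≤ ((∏ a ∈ S, d a : ℕ) : ℝ) := by
      rw [← hcard, Nat.cast_prod, ← prod_const]
      exact prod_le_prod (fun _ _ => by linarith) fun a ha => (hmem a ha).2.2.le
    linarith
  · refine (card_le_card (t := range (L / w + 1)) fun c hc => ?_).trans (card_range _).le
    obtain ⟨a, ha, rfl⟩ := mem_image.1 hc
    rw [mem_filter, mem_Icc] at ha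
    exact mem_range.2 (Nat.lt_succ_of_le (Nat.div_le_div_right ha.1.2))

/-- The tuples of exponents. -/
def tuples (k L : ℕ) : Finset (Fin k → ℕ) := Fintype.piFinset fun _ => Icc 1 L

theorem card_tuples (k L : ℕ) : (tuples k L).card = L ^ k := by simp [tuples]

/-- The sum of the powers. -/
def powTotal {k : ℕ} (f : Fin k → ℕ) : ℕ := ∑ i, 2 ^ f i

theorem powTotal_le {k L : ℕ} {f : Fin k → ℕ} (hf : f ∈ tuples k L) : powTotal f ≤ k * 2 ^ L := by
  rw [tuples, Fintype.mem_piFinset] at hf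
  refine (sum_le_card_nsmul _ _ (2 ^ L) fun i _ => Nat.pow_le_pow_right two_pos (mem_Icc.1 (hf i)).2).trans ?_
  simp

/-- One coordinate at a time. -/
theorem card_filter_tuples_le {k L c : ℕ} (P : ℕ → Prop)
    (h : ∀ s, s ≤ k * 2 ^ L → ((Icc 1 L).filter fun a => P (2 ^ a + s)).card ≤ c) :
    ((tuples (k + 1) L).filter fun f => P (powTotal f)).card ≤ c * L ^ k := by
  rw [← card_tuples k L]
  refine (card_le_mul_card_image (f := fun f => Fin.tail f) _ c fun g hg => ?_).trans (Nat.mul_le_mul_left c ?_)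
  · obtain ⟨f, hf, rfl⟩ := mem_image.1 hg
    have hf' : Fin.tail f ∈ tuples k L := by
      rw [mem_filter, tuples, Fintype.mem_piFinset] at hf
      rw [tuples, Fintype.mem_piFinset]
      exact fun i => hf.1 i.succ
    refine (card_le_card_of_injOn (fun f' => f' 0) (fun f' hf1 => ?_) ?_).trans (h _ (powTotal_le hf'))
    · simp only [mem_coe, mem_filter, tuples, Fintype.mem_piFinset] at hf1 ⊢
      obtain ⟨⟨hf1, hP⟩, ht⟩ := hf1
      refine ⟨hf1 0, ?_⟩
      rw [powTotal, Fin.sum_univ_succ] at hP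
      rw [← ht]
      exact hP
    · intro f₁ h₁ f₂ h₂ he
      simp only [mem_coe, mem_filter] at h₁ h₂
      rw [← Fin.cons_self_tail f₁, ← Fin.cons_self_tail f₂, h₁.2, h₂.2]
      exact congrArg (fun x => Fin.cons (α := fun _ => ℕ) x (Fin.tail f)) he
  · refine card_le_card fun g hg => ?_
    obtain ⟨f, hf, rfl⟩ := mem_image.1 hg
    rw [mem_filter, tuples, Fintype.mem_piFinset] at hf
    rw [tuples, Fintype.mem_piFinset]
    exact fun i => hf.1 i.succ

end FA.LinnikPowersTwo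

end
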