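import Fermat.Agent.HilbertSpeiser.Conductor
import Fermat.Agent.AbelianFE.RealGauss

/-!
# The conductor of a real character

It is at most `8` times a product of distinct odd primes; so a large one has a large prime factor, once.
-/

set_option autoImplicit false
set_option linter.unusedSectionVars false

noncomputable section

open DirichletCharacter
open scoped Classical Nat

namespace FA.LinnikPowersTwo

variable {r : ℕ} [NeZero r] {χ : DirichletCharacter ℂ r}

theorem eq_two_of_sq_dvd (hprim : χ.IsPrimitive) (hsq : χ ^ 2 = 1) {p : ℕ} (hp : p.Prime) (h : p * p ∣ r) :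
    p = 2 :=
  (Nat.prime_dvd_prime_iff_eq hp Nat.prime_two).1
    (FA.HilbertSpeiser.dvd_order_of_sq_dvd_conductor hsq hp (by rwa [show χ.conductor = r from hprim]))

theorem factorization_two_le (hprim : χ.IsPrimitive) (hsq : χ ^ 2 = 1) : r.factorization 2 ≤ 3 := by
  obtain ⟨k, hk⟩ : ∃ k, k = r.factorization 2 := ⟨_, rfl⟩
  obtain ⟨m, hm⟩ : ∃ m, m = r / 2 ^ k := ⟨_, rfl⟩
  have e : 2 ^ k * m = r := by
    rw [hm, hk]
    exact Nat.ordProj_mul_ordCompl_eq_self r 2
  have hab : (2 ^ k).Coprime m := by
    rw [hm, hk]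
    exact Nat.Coprime.pow_left _ (Nat.coprime_ordCompl Nat.prime_two (NeZero.ne r))
  rw [← hk]
  subst e
  have : NeZero m := ⟨fun h => NeZero.ne (2 ^ k * m) (by rw [h, mul_zero])⟩
  exact FA.AbelianFE.exponent_le_three_of_real (FA.AbelianFE.fstPart_isPrimitive hab χ hprim)
    (FA.AbelianFE.fstPart_sq hab χ hsq)

/-- **A large conductor of a real character has a large prime factor, once.** -/
theorem exists_large_prime_factor (hprim : χ.IsPrimitive) (hsq : χ ^ 2 = 1) {P : ℕ}
    (hr : 8 * P ! < r) : ∃ p : ℕ, p.Prime ∧ P < p ∧ r.factorization p = 1 := by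
  have hr0 : r ≠ 0 := NeZero.ne r
  have hone : ∀ p : ℕ, p.Prime → p ≠ 2 → r.factorization p ≤ 1 := fun p hp hp2 => by
    by_contra hlt
    refine hp2 (eq_two_of_sq_dvd hprim hsq hp ?_)
    rw [← sq]
    exact (hp.pow_dvd_iff_le_factorization hr0).2 (by omega)
  by_contra hno
  push Not at hno
  have hdvd : r ∣ 8 * P ! := by
    rw [← Nat.factorization_le_iff_dvd hr0 (by positivity)]
    intro p
    by_cases hp : p.Prime
    swap
    · rw [Nat.factorization_eq_zero_of_not_prime r hp]
      exact Nat.zero_le _
    rw [Nat.factorization_mul (by norm_num) (Nat.factorial_ne_zero P), Finsupp.add_apply]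
    by_cases hp2 : p = 2
    · subst hp2
      have : (8 : ℕ).factorization 2 = 3 := by
        rw [show (8 : ℕ) = 2 ^ 3 by norm_num, Nat.prime_two.factorization_pow, Finsupp.single_eq_same]
      have := factorization_two_le hprim hsq
      omega
    · rcases Nat.eq_zero_or_pos (r.factorization p) with h0 | h0
      · omega
      have h1 : r.factorization p = 1 := le_antisymm (hone p hp hp2) h0
      have hpP : p ≤ P := not_lt.1 fun h => hno p hp h h1
      have := (hp.dvd_iff_one_le_factorization (Nat.factorial_ne_zero P)).1 (hp.dvd_factorial.2 hpP)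
      omega
  exact absurd (Nat.le_of_dvd (by positivity) hdvd) (not_le.2 hr)

end FA.LinnikPowersTwo

end
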