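import Fermat.Agent.MontgomeryVaughan.Main

/-!
# A large prime in the exceptional modulus

If `p` divides `r` once and not `n`, the exceptional square is at most `4 / p` times `n / φ n`.
-/

set_option autoImplicit false
set_option linter.unusedSectionVars false

noncomputable section

open Finset Complex ArithmeticFunction
open FA.ThreePrimes (ramanujan moebiusR)
open FA.MontgomeryVaughan
open scoped Classical

namespace FA.LinnikPowersTwo

/-- The exceptional local factor against the common primes. -/
theorem exc_factor_le_common {n : ℕ} (hn : Even n) (r : ℕ) (hr : 0 < r) :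
    (r : ℝ) * |ramanujan n r| / (r.totient : ℝ) ^ 2 ≤
      ∏ q ∈ r.primeFactors.filter (· ∣ n), (1 + 1 / ((q : ℝ) - 1)) := by
  induction r using Nat.recOnPosPrimePosCoprime with
  | zero => omega
  | one => simp [(ramanujan_isMultiplicative n).1]
  | coprime a b ha hb hab iha ihb =>
    rw [(ramanujan_isMultiplicative n).2 hab, Nat.totient_mul hab, hab.primeFactors_mul, filter_union,
      prod_union (disjoint_filter_filter hab.disjoint_primeFactors)]
    push_cast
    rw [abs_mul, show (a : ℝ) * b * (|ramanujan n a| * |ramanujan n b|) / ((a.totient : ℝ) * b.totient) ^ 2 =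
      ((a : ℝ) * |ramanujan n a| / (a.totient : ℝ) ^ 2) * ((b : ℝ) * |ramanujan n b| / (b.totient : ℝ) ^ 2) by
      ring]
    exact mul_le_mul (iha (by omega)) (ihb (by omega)) (by positivity) (prod_nonneg fun p hp =>
      zero_le_one.trans (one_le_factor (Nat.prime_of_mem_primeFactors (mem_filter.1 hp).1)))
  | prime_pow p k hp hk =>
    rw [Nat.primeFactors_prime_pow hk.ne' hp, filter_singleton]
    have h2 : (2 : ℝ) ≤ p := by exact_mod_cast hp.two_le
    by_cases hpn : p ∣ n
    · rw [if_pos hpn, prod_singleton]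
      refine (div_le_div_of_nonneg_right (mul_le_mul_of_nonneg_left (FA.ThreePrimes.abs_ramanujan_le n _)
        (Nat.cast_nonneg _)) (sq_nonneg _)).trans (le_of_eq ?_)
      obtain ⟨i, rfl⟩ : ∃ i, k = i + 1 := ⟨k - 1, by omega⟩
      rw [Nat.totient_prime_pow_succ hp]
      push_cast [Nat.cast_sub hp.one_le]
      have : (p : ℝ) - 1 ≠ 0 := by linarith
      have : (p : ℝ) ^ i ≠ 0 := by positivity
      field_simp
      ring
    · rw [if_neg hpn, prod_empty, ramanujan_primePow_not_dvd hp hpn]
      rcases Nat.lt_or_ge k 2 with hk1 | hk2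
      · obtain rfl : k = 1 := by omega
        have h3 : 3 ≤ p := by
          by_contra h
          exact hpn ((show p = 2 by have := hp.two_le; omega) ▸ even_iff_two_dvd.1 hn)
        have h3' : (3 : ℝ) ≤ p := by exact_mod_cast h3
        rw [pow_one, moebiusR, intCoe_apply, moebius_apply_prime hp, Nat.totient_prime hp, Nat.cast_sub hp.one_le]
        push_cast
        rw [abs_neg, abs_one, mul_one, div_le_one (by nlinarith)]
        nlinarith
      · rw [moebiusR, intCoe_apply, moebius_apply_prime_pow hp (by omega), if_neg (by omega)]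
        simp

/-- **The exceptional square when a large prime of `r` misses `n`.** -/
theorem norm_exc_le_of_prime {u : Σ r : ℕ, DirichletCharacter ℂ r} [NeZero u.1] (hu : u.2.IsPrimitive)
    (hsq : u.2 ^ 2 = 1) {n : ℕ} (hn : n ≠ 0) (heven : Even n) (Q : ℕ) {p : ℕ} (hp : p.Prime)
    (hpr : u.1.factorization p = 1) (hpn : ¬p ∣ n) :
    ‖pairCoef u u Q n‖ ≤ 4 / (p : ℝ) * (pairZ * ratio n) := by
  obtain ⟨b, hb⟩ : p ∣ u.1 := Nat.dvd_of_factorization_pos (by omega)
  have hb0 : 0 < b := Nat.pos_of_ne_zero fun h => NeZero.ne u.1 (by rw [hb, h, mul_zero])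
  have hcop : p.Coprime b := hp.coprime_iff_not_dvd.2 fun h => by
    have h1 := hp.factorization_pos_of_dvd hb0.ne' h
    rw [hb, Nat.factorization_mul hp.ne_zero hb0.ne', Finsupp.add_apply, hp.factorization_self] at hpr
    omega
  have h2 : (2 : ℝ) ≤ p := by exact_mod_cast hp.two_le
  refine (norm_pairCoef_exc_le u hu hsq Q n).trans ?_
  have hec : (u.1 : ℝ) * |ramanujan n u.1| / (u.1.totient : ℝ) ^ 2 ≤
      4 / (p : ℝ) * ∏ q ∈ u.1.primeFactors.filter (· ∣ n), (1 + 1 / ((q : ℝ) - 1)) := by
    rw [hb, (ramanujan_isMultiplicative n).2 hcop, Nat.totient_mul hcop]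
    push_cast
    rw [abs_mul, show (p : ℝ) * b * (|ramanujan n p| * |ramanujan n b|) / ((p.totient : ℝ) * b.totient) ^ 2 =
      ((p : ℝ) * |ramanujan n p| / (p.totient : ℝ) ^ 2) * ((b : ℝ) * |ramanujan n b| / (b.totient : ℝ) ^ 2) by ring]
    refine mul_le_mul ?_ ?_ (by positivity) (by positivity)
    · rw [FA.ThreePrimes.ramanujan_prime n hp, if_neg hpn, Nat.totient_prime hp, Nat.cast_sub hp.one_le,
        Nat.cast_one, abs_neg, abs_one, mul_one, div_le_div_iff₀ (by nlinarith) (by linarith)]
      nlinarith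
    · refine (exc_factor_le_common heven b hb0).trans (le_of_eq (prod_congr ?_ fun _ _ => rfl))
      rw [hcop.primeFactors_mul, filter_union, hp.primeFactors, filter_singleton, if_neg hpn, empty_union]
  refine (mul_le_mul hec (abs_partial_coprime_le_prod hn u.1 (Q / u.1)) (abs_nonneg _) (mul_nonneg (by positivity)
    (prod_nonneg fun q hq => zero_le_one.trans
      (one_le_factor (Nat.prime_of_mem_primeFactors (mem_filter.1 hq).1))))).trans (le_of_eq ?_)
  have hunion : u.1.primeFactors.filter (· ∣ n) ∪ n.primeFactors \ u.1.primeFactors = n.primeFactors := by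
    ext q
    simp only [mem_union, mem_filter, mem_sdiff, Nat.mem_primeFactors, ne_eq]
    constructor
    · rintro (⟨⟨h1, -, -⟩, h3⟩ | ⟨h1, -⟩)
      · exact ⟨h1, h3, hn⟩
      · exact h1
    · intro h1
      by_cases h : q ∣ u.1
      · exact Or.inl ⟨⟨h1.1, h, NeZero.ne u.1⟩, h1.2.1⟩
      · exact Or.inr ⟨h1, fun h' => h h'.2.1⟩
  have hdisj : Disjoint (u.1.primeFactors.filter (· ∣ n)) (n.primeFactors \ u.1.primeFactors) :=
    disjoint_left.2 fun q hq hq' => (Finset.mem_sdiff.1 hq').2 (mem_filter.1 hq).1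
  rw [ratio, show ∏ q ∈ n.primeFactors, (1 + 1 / ((q : ℝ) - 1)) =
    ∏ q ∈ u.1.primeFactors.filter (· ∣ n) ∪ n.primeFactors \ u.1.primeFactors, (1 + 1 / ((q : ℝ) - 1)) by
      rw [hunion], prod_union hdisj]
  ring

end FA.LinnikPowersTwo

end
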