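import Fermat.Agent.LinnikPowersTwo.PowerSum
import Fermat.Agent.ThreePrimes.Main
import Fermat.Agent.Romanoff.Main

/-!
# The mean square of the sum over primes times that over powers of two

`∑_h |S G (h / M)| ^ 2 = M ∑_m c(m) ^ 2`, `c` the convolution, and the coincidences `p + 2 ^ a = q + 2 ^ b`
are counted by the sieve for pairs of primes and Romanoff's series.
-/

set_option autoImplicit false
set_option linter.unusedSectionVars false

noncomputable section

open Finset Complex ArithmeticFunction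
open FA.ThreePrimes (eAdd trigSum powerPart powerPart_nonneg)
open scoped Real Classical

namespace FA.LinnikPowersTwo

/-- `∑_{i + 2 ^ a = m} g i`. -/
def powConv (g : ℕ → ℝ) (X L m : ℕ) : ℝ :=
  ∑ a ∈ Icc 1 L, ∑ i ∈ Icc 1 X, if i + 2 ^ a = m then g i else 0

theorem trigSum_mul_powSum {g : ℕ → ℝ} {X L : ℕ} (hL : 2 ^ L ≤ X) (x : ℝ) :
    trigSum (fun i => (g i : ℂ)) X x * powSum L x = trigSum (fun m => (powConv g X L m : ℂ)) (2 * X) x := by
  simp only [trigSum, powSum, powConv, sum_mul_sum]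
  rw [sum_comm]
  simp only [Complex.ofReal_sum, sum_mul]
  conv_rhs => rw [sum_comm]
  refine sum_congr rfl fun a ha => ?_
  conv_rhs => rw [sum_comm]
  refine sum_congr rfl fun i hi => ?_
  rw [mem_Icc] at ha hi
  have hpow : 2 ^ a ≤ X := (Nat.pow_le_pow_right two_pos ha.2).trans hL
  rw [sum_eq_single (i + 2 ^ a)]
  · rw [if_pos rfl, mul_assoc, ← FA.ThreePrimes.eAdd_add]
    congr 2
    push_cast
    ring
  · intro m _ hm
    rw [if_neg hm.symm]
    simp
  · intro hm
    have := Nat.one_le_two_pow (n := a)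
    exact absurd (mem_Icc.2 ⟨by omega, by omega⟩) hm

/-- The coincidences of one pair of exponents. -/
def collide (g : ℕ → ℝ) (X a b : ℕ) : ℝ :=
  ∑ i ∈ Icc 1 X, ∑ j ∈ Icc 1 X, if i + 2 ^ a = j + 2 ^ b then g i * g j else 0

theorem sum_powConv_sq {g : ℕ → ℝ} {X L : ℕ} (hL : 2 ^ L ≤ X) :
    ∑ m ∈ Icc 1 (2 * X), powConv g X L m ^ 2 = ∑ a ∈ Icc 1 L, ∑ b ∈ Icc 1 L, collide g X a b := by
  rw [sum_congr rfl fun m _ => show powConv g X L m ^ 2 =
    ∑ a ∈ Icc 1 L, ∑ i ∈ Icc 1 X, (if i + 2 ^ a = m then g i else 0) * powConv g X L m by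
      rw [sq]
      conv_lhs => rw [powConv, sum_mul]
      simp only [sum_mul, powConv], sum_comm]
  refine sum_congr rfl fun a ha => ?_
  rw [sum_comm]
  simp only [collide]
  conv_rhs => rw [sum_comm]
  refine sum_congr rfl fun i hi => ?_
  rw [mem_Icc] at ha hi
  have hpow : 2 ^ a ≤ X := (Nat.pow_le_pow_right two_pos ha.2).trans hL
  rw [sum_eq_single (i + 2 ^ a)]
  · rw [if_pos rfl, powConv, mul_sum]
    refine sum_congr rfl fun b _ => ?_
    rw [mul_sum]
    refine sum_congr rfl fun j _ => ?_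
    by_cases h : i + 2 ^ a = j + 2 ^ b
    · rw [if_pos h, if_pos h.symm]
    · rw [if_neg h, if_neg (Ne.symm h), mul_zero]
  · intro m _ hm
    rw [if_neg hm.symm, zero_mul]
  · intro hm
    have := Nat.one_le_two_pow (n := a)
    exact absurd (mem_Icc.2 ⟨by omega, by omega⟩) hm

theorem powConv_add (f g : ℕ → ℝ) (X L m : ℕ) :
    powConv (fun i => f i + g i) X L m = powConv f X L m + powConv g X L m := by
  simp only [powConv, ← sum_add_distrib]
  refine sum_congr rfl fun a _ => sum_congr rfl fun i _ => ?_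
  split_ifs <;> simp

theorem collide_le_sq (g : ℕ → ℝ) (X a b : ℕ) : collide g X a b ≤ ∑ i ∈ Icc 1 X, g i ^ 2 := by
  obtain ⟨P, hP⟩ : ∃ P, P = ∑ i ∈ Icc 1 X, g i ^ 2 := ⟨_, rfl⟩
  rw [← hP]
  have h : ∀ c d : ℕ, ∑ i ∈ Icc 1 X, ∑ j ∈ Icc 1 X, (if i + 2 ^ c = j + 2 ^ d then g i ^ 2 else 0) ≤ P :=
    fun c d => by
    rw [hP]
    refine sum_le_sum fun i _ => ?_
    rw [← sum_filter]
    refine (sum_le_card_nsmul _ _ (g i ^ 2) fun j _ => le_rfl).trans ?_
    rw [nsmul_eq_mul]
    refine mul_le_of_le_one_left (sq_nonneg _) (Nat.cast_le_one.2 (card_le_one.2 fun x hx y hy => ?_))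
    rw [mem_filter] at hx hy
    omega
  have h2 : ∑ i ∈ Icc 1 X, ∑ j ∈ Icc 1 X, (if i + 2 ^ a = j + 2 ^ b then g j ^ 2 else 0) ≤ P := by
    rw [sum_comm]
    refine le_of_eq_of_le (sum_congr rfl fun j _ => sum_congr rfl fun i _ => ?_) (h b a)
    exact if_congr eq_comm rfl rfl
  have hterm : collide g X a b ≤ ∑ i ∈ Icc 1 X, ∑ j ∈ Icc 1 X,
      ((if i + 2 ^ a = j + 2 ^ b then g i ^ 2 else 0) + (if i + 2 ^ a = j + 2 ^ b then g j ^ 2 else 0)) / 2 :=
    sum_le_sum fun i _ => sum_le_sum fun j _ => by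
      split_ifs
      · linarith [sq_nonneg (g i - g j)]
      · simp
  refine hterm.trans ?_
  simp only [add_div, sum_add_distrib, ← sum_div]
  linarith [h a b]

/-- `Λ` on the primes. -/
def primePart (n : ℕ) : ℝ := if n.Prime then Λ n else 0

theorem primePart_add_powerPart (n : ℕ) : primePart n + powerPart n = Λ n := by
  simp only [primePart, powerPart]
  split_ifs <;> simp

theorem primePart_le {X i : ℕ} (hi : i ∈ Icc 1 X) : primePart i ≤ Real.log X ∧ 0 ≤ primePart i := by
  rw [mem_Icc] at hi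
  simp only [primePart]
  split_ifs
  · exact ⟨vonMangoldt_le_log.trans (Real.log_le_log (Nat.cast_pos.2 hi.1) (Nat.cast_le.2 hi.2)),
      vonMangoldt_nonneg⟩
  · exact ⟨Real.log_natCast_nonneg X, le_rfl⟩

theorem collide_primePart_le {X a b : ℕ} :
    collide primePart X a b ≤
      Real.log X ^ 2 * (GoldbachSchnirelmann.primePairs ((2 : ℤ) ^ a - 2 ^ b) X).card := by
  obtain ⟨P, hP⟩ : ∃ P, P = GoldbachSchnirelmann.primePairs ((2 : ℤ) ^ a - 2 ^ b) X := ⟨_, rfl⟩
  rw [← hP]
  refine (sum_le_sum (g := fun i => if i ∈ P then Real.log X ^ 2 else 0) fun i hi => ?_).trans ?_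
  · rw [← sum_filter]
    split_ifs with hiP
    · refine (sum_le_card_nsmul _ _ (Real.log X ^ 2) fun j hj => ?_).trans ?_
      · rw [sq]
        exact mul_le_mul (primePart_le hi).1 (primePart_le (mem_filter.1 hj).1).1
          (primePart_le (mem_filter.1 hj).1).2 (Real.log_natCast_nonneg X)
      · rw [nsmul_eq_mul]
        refine mul_le_of_le_one_left (sq_nonneg _) (Nat.cast_le_one.2 (card_le_one.2 fun x hx y hy => ?_))
        rw [mem_filter] at hx hy
        omega
    · refine le_of_eq (sum_eq_zero fun j hj => ?_)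
      rw [mem_filter] at hj
      by_contra hne
      rcases mul_ne_zero_iff.1 hne with ⟨h1, h2⟩
      have hip : i.Prime := by
        by_contra hc
        exact h1 (if_neg hc)
      have hjp : j.Prime := by
        by_contra hc
        exact h2 (if_neg hc)
      rw [mem_Icc] at hi
      refine hiP (hP ▸ mem_filter.2 ⟨mem_Ioc.2 ⟨by omega, hi.2⟩, hip, ?_⟩)
      have e : ((i : ℤ) + 2 ^ a) = (j : ℤ) + 2 ^ b := by exact_mod_cast hj.2
      rw [show (i : ℤ) + ((2 : ℤ) ^ a - 2 ^ b) = (j : ℤ) by linarith, Int.natAbs_natCast]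
      exact hjp
  · rw [← sum_filter, sum_const, nsmul_eq_mul, mul_comm]
    exact mul_le_mul_of_nonneg_left (Nat.cast_le.2 (card_le_card fun i hi => (mem_filter.1 hi).2)) (sq_nonneg _)

/-- **The mean square.** -/
theorem exists_mean_square_le : ∃ C : ℝ, 0 < C ∧ ∀ X L M : ℕ, 2 ≤ X → 2 ^ L ≤ X → 2 * X < M →
    ∑ h ∈ range M, ‖trigSum (fun i => (Λ i : ℂ)) X ((h : ℝ) / M) * powSum L ((h : ℝ) / M)‖ ^ 2 ≤
      C * M * X * L * (L + Real.log X) := by
  obtain ⟨K, hK, hpow⟩ := FA.ThreePrimes.exists_log_pow_le 2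
  obtain ⟨R, hR⟩ : ∃ R : ℝ, R = 2 * (∏ p ∈ (2 : ℕ).primeFactors, (p : ℝ) / (p - 1)) *
      ∑' d, Romanoff.romanoffTerm 2 d := ⟨_, rfl⟩
  have hR0 : 0 ≤ R := by
    have h1 : 0 ≤ ∏ p ∈ (2 : ℕ).primeFactors, (p : ℝ) / (p - 1) :=
      (Romanoff.recipDiv_nonneg _).trans (Romanoff.recipDiv_pow_le le_rfl 0)
    have h2 : 0 ≤ ∑' d, Romanoff.romanoffTerm 2 d := tsum_nonneg (Romanoff.romanoffTerm_nonneg 2)
    rw [hR]; positivity
  refine ⟨10000 * R + 12 + 4 * K, by positivity, fun X L M hX hL hM => ?_⟩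
  obtain ⟨l, hl⟩ : ∃ l, l = Real.log X := ⟨_, rfl⟩
  have hl0 : 0 < l := hl ▸ Real.log_pos (by exact_mod_cast hX)
  rw [← hl]
  have hX' : (1 : ℝ) ≤ X := Nat.one_le_cast.2 (by omega)
  simp only [trigSum_mul_powSum (g := fun i => Λ i) hL]
  rw [FA.ThreePrimes.sum_norm_sq_grid _ hM]
  simp only [Complex.norm_real, Real.norm_eq_abs, sq_abs]
  have hsplit : ∀ m, powConv (fun i => Λ i) X L m ^ 2 ≤
      2 * powConv primePart X L m ^ 2 + 2 * powConv powerPart X L m ^ 2 := fun m => by
    rw [show (fun i => Λ i) = fun i => primePart i + powerPart i from funext fun i => (primePart_add_powerPart i).symm,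
      powConv_add]
    linarith [sq_nonneg (powConv primePart X L m - powConv powerPart X L m)]
  have hpp : ∑ m ∈ Icc 1 (2 * X), powConv powerPart X L m ^ 2 ≤ 2 * K * X * ((L : ℝ) * L) := by
    rw [sum_powConv_sq hL]
    refine (sum_le_card_nsmul _ _ ((L : ℝ) * (2 * K * X)) fun a _ =>
      (sum_le_card_nsmul _ _ (2 * K * X) fun b _ => (collide_le_sq _ X a b).trans ?_).trans (le_of_eq ?_)).trans
      (le_of_eq ?_)
    · refine (sum_le_sum (g := fun i => l * powerPart i) fun i hi => ?_).trans ?_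
      · rw [sq]
        refine mul_le_mul_of_nonneg_right ?_ (powerPart_nonneg i)
        rw [mem_Icc] at hi
        simp only [powerPart]
        split_ifs
        · exact hl0.le
        · exact hl ▸ vonMangoldt_le_log.trans (Real.log_le_log (Nat.cast_pos.2 hi.1) (Nat.cast_le.2 hi.2))
      · rw [← mul_sum]
        refine (mul_le_mul_of_nonneg_left (hl ▸ FA.ThreePrimes.sum_powerPart_le (by omega)) hl0.le).trans ?_
        have h1 := mul_le_mul_of_nonneg_left (hl ▸ hpow X hX') (show 0 ≤ 2 * √(X : ℝ) by positivity)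
        rw [show 2 * √(X : ℝ) * (K * √(X : ℝ)) = 2 * K * (√(X : ℝ) * √(X : ℝ)) by ring,
          Real.mul_self_sqrt (by linarith)] at h1
        linarith
    · simp
    · simp; ring
  have hp : ∑ m ∈ Icc 1 (2 * X), powConv primePart X L m ^ 2 ≤
      6 * X * l * L + 5000 * R * X * ((L : ℝ) * L) := by
    rw [sum_powConv_sq hL, ← sum_product', ← sum_filter_add_sum_filter_not _ (fun q : ℕ × ℕ => q.1 ≠ q.2), add_comm]
    refine add_le_add ?_ ?_
    · refine (sum_le_card_nsmul _ _ (6 * X * l) fun q _ => (collide_le_sq _ X q.1 q.2).trans ?_).trans ?_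
      · refine (sum_le_sum (g := fun i => Λ i * l) fun i hi => ?_).trans ?_
        · have h1 := primePart_le hi
          rw [sq]
          refine mul_le_mul ?_ (hl ▸ h1.1) h1.2 vonMangoldt_nonneg
          simp only [primePart]
          split_ifs
          · exact le_rfl
          · exact vonMangoldt_nonneg
        · rw [← sum_mul]
          exact mul_le_mul_of_nonneg_right (FA.ThreePrimes.sum_vonMangoldt_le X) hl0.le
      · rw [nsmul_eq_mul, mul_comm]
        refine mul_le_mul_of_nonneg_left (Nat.cast_le.2 ?_) (by positivity)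
        refine (card_le_card_of_injOn (t := Icc 1 L) Prod.fst (fun q hq => ?_) fun q hq r hr h => ?_).trans
          (by simp)
        · simp only [mem_coe, mem_filter, mem_product] at hq ⊢
          exact hq.1.1
        · simp only [mem_coe, mem_filter, mem_product, ne_eq, not_not] at hq hr
          exact Prod.ext h (by rw [← hq.2, ← hr.2, h])
    · refine (sum_le_sum (g := fun q : ℕ × ℕ => 5000 * X *
        GoldbachSchnirelmann.singularSum (((2 : ℕ) : ℤ) ^ q.1 - ((2 : ℕ) : ℤ) ^ q.2)) fun q hq => ?_).trans ?_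
      · simp only [mem_filter, mem_product, mem_Icc, ne_eq] at hq
        refine collide_primePart_le.trans ?_
        rw [← hl]
        refine (mul_le_mul_of_nonneg_left (GoldbachSchnirelmann.card_primePairs_le ?_ ?_ hX) (sq_nonneg l)).trans
          (le_of_eq ?_)
        · exact dvd_sub (dvd_pow_self 2 (by omega)) (dvd_pow_self 2 (by omega))
        · rw [sub_ne_zero]
          exact fun h => hq.2 (Nat.pow_right_injective le_rfl (by exact_mod_cast h))
        · rw [← hl, Nat.cast_ofNat]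
          field_simp
      · rw [← mul_sum]
        refine (mul_le_mul_of_nonneg_left (Romanoff.sum_singularSum_le le_rfl L) (by positivity)).trans
          (le_of_eq ?_)
        rw [hR]
        ring
  have hsum : ∑ m ∈ Icc 1 (2 * X), powConv (fun i => Λ i) X L m ^ 2 ≤
      (10000 * R + 12 + 4 * K) * X * L * (L + l) := by
    refine (sum_le_sum fun m _ => hsplit m).trans ?_
    rw [sum_add_distrib, ← mul_sum, ← mul_sum]
    have e1 : 0 ≤ R * X * L * l := by positivity
    have e2 : 0 ≤ K * X * L * l := by positivity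
    have e3 : 0 ≤ (X : ℝ) * L * L := by positivity
    linarith
  refine (mul_le_mul_of_nonneg_left hsum (Nat.cast_nonneg M)).trans (le_of_eq ?_)
  ring

end FA.LinnikPowersTwo

end
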