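import Fermat.Agent.LinnikPowersTwo.Major
import Fermat.Agent.LinnikPowersTwo.MeanSquare

/-!
# Two primes and powers of two

For `k` large every large even `N` has at least `c N (log N) ^ (k - 2)` representations
`p + q + 2 ^ a₁ + ... + 2 ^ aₖ`: off the arcs the sum over powers is rarely near its length, and then the sum
over primes is small; elsewhere the mean square of their product is `O (N L ^ 2)`.
-/

set_option autoImplicit false
set_option linter.unusedSectionVars false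

noncomputable section

open Finset Complex ArithmeticFunction Filter
open FA.ThreePrimes (eAdd trigSum)
open FA.AlmostGoldbach (pairSum pairW goldbachCount)
open FA.MontgomeryVaughan
open scoped Real Classical Topology

namespace FA.LinnikPowersTwo

theorem eAdd_sum {ι : Type*} (s : Finset ι) (f : ι → ℝ) : eAdd (∑ i ∈ s, f i) = ∏ i ∈ s, eAdd (f i) := by
  induction s using Finset.induction_on with
  | empty => simp
  | insert x s hx ih => rw [sum_insert hx, prod_insert hx, FA.ThreePrimes.eAdd_add, ih]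

theorem sum_tuples_eAdd (k L : ℕ) (x : ℝ) :
    ∑ f ∈ tuples k L, eAdd ((powTotal f : ℝ) * x) = powSum L x ^ k := by
  rw [powSum, sum_pow', tuples]
  refine sum_congr rfl fun f _ => ?_
  rw [powTotal, Nat.cast_sum, sum_mul, eAdd_sum]

/-- **Off the arcs**, all tuples at once. -/
theorem norm_sum_minor_le {N Q H M J Y k L : ℕ} (hP : Params N Q H M J Y)
    (hle : ∀ f ∈ tuples k L, powTotal f ≤ N) :
    (∑ f ∈ tuples k L, (majorSum Q N M J (N - powTotal f)).re) -
        (∑ h ∈ minorSet Q M J,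
          ‖trigSum (fun i => (Λ i : ℂ)) N ((h : ℝ) / M)‖ ^ 2 * ‖powSum L ((h : ℝ) / M)‖ ^ k) / M ≤
      ∑ f ∈ tuples k L, pairW (N - powTotal f) := by
  obtain ⟨E, hE⟩ : ∃ E : ℕ → ℂ, E = fun n : ℕ => (∑ h ∈ minorSet Q M J,
    trigSum (fun i => (Λ i : ℂ)) N ((h : ℝ) / M) ^ 2 * eAdd (-(n * ((h : ℝ) / M)))) / M := ⟨_, rfl⟩
  have hW : ∀ f ∈ tuples k L, pairW (N - powTotal f) =
      (majorSum Q N M J (N - powTotal f)).re + (E (N - powTotal f)).re := fun f _ => by
    rw [← Complex.add_re, hE, ← pairSum_eq_major_add_minor hP (Nat.sub_le N _),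
      FA.AlmostGoldbach.pairSum_cast (Nat.sub_le N _), Complex.ofReal_re]
  rw [sum_congr rfl hW, sum_add_distrib, sub_eq_add_neg]
  refine add_le_add le_rfl ?_
  rw [← Complex.re_sum]
  refine neg_le.2 ((neg_le_abs _).trans ((Complex.abs_re_le_norm _).trans ?_))
  simp only [hE, ← sum_div]
  rw [norm_div, Complex.norm_natCast]
  refine div_le_div_of_nonneg_right ?_ (Nat.cast_nonneg M)
  rw [sum_comm]
  refine (norm_sum_le _ _).trans (sum_le_sum fun h _ => le_of_eq ?_)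
  obtain ⟨x, hx⟩ : ∃ x : ℝ, x = (h : ℝ) / M := ⟨_, rfl⟩
  rw [← hx, ← mul_sum, norm_mul, norm_pow]
  congr 1
  rw [sum_congr rfl fun f hf => show eAdd (-(((N - powTotal f : ℕ) : ℝ) * x)) =
    eAdd (-((N : ℝ) * x)) * eAdd ((powTotal f : ℝ) * x) by
      rw [← FA.ThreePrimes.eAdd_add, Nat.cast_sub (hle f hf)]
      congr 1
      ring, ← mul_sum, sum_tuples_eAdd, norm_mul, FA.ThreePrimes.norm_eAdd, one_mul, norm_pow]

/-- **Many representations.** -/
theorem exists_goldbach_powers_count : ∃ k₀ : ℕ, ∀ k, k₀ ≤ k → ∀ᶠ N : ℕ in atTop, Even N →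
    (1 / 2 : ℝ) ^ k * N * Real.log N ^ k / (240 * Real.log N ^ 2) ≤
      ∑ f ∈ tuples k (expCount k N), (goldbachCount (N - powTotal f) : ℝ) := by
  obtain ⟨K, hK, hmajor⟩ := exists_majorSum_ge
  have hK0 : 0 < K := by omega
  obtain ⟨σ, hσ⟩ : ∃ σ : ℝ, σ = 1 / (8 * (K : ℝ)) := ⟨_, rfl⟩
  obtain ⟨η, hη0, hη1, hlarge⟩ := card_large_powSum_le (show 0 < σ by rw [hσ]; positivity)
  obtain ⟨C, hC, hms⟩ := exists_mean_square_le
  obtain ⟨j₀, hj₀⟩ := exists_pow_lt_of_lt_one (show 0 < 1 / (720 * C) by positivity)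
    (show 1 - η < 1 by linarith)
  refine ⟨j₀ + 2, fun k hk => ?_⟩
  obtain ⟨j, rfl⟩ : ∃ j, k = j + 1 + 1 := ⟨k - 2, by omega⟩
  have hj : (1 - η) ^ j * (3 * C) ≤ 1 / 240 := by
    refine (mul_le_mul_of_nonneg_right ((pow_le_pow_of_le_one (by linarith) (by linarith) (show j₀ ≤ j by omega)).trans
      hj₀.le) (by positivity)).trans (le_of_eq ?_)
    field_simp
    ring
  filter_upwards [hmajor (j + 1), eventually_expCount (show 0 < j + 1 + 1 by omega), eventually_log_le hK0,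
    eventually_log_pow_le hK0 8 (28000 ^ 2 * 128 * 240 * ((j + 1 + 1 : ℕ) : ℝ)) (show (0 : ℝ) < 1 / 2 by norm_num),
    eventually_log_pow_le hK0 2 960 (show (0 : ℝ) < 1 by norm_num)] with N hX hL hlog hs8 hs2 heven
  obtain ⟨H, M, J, Y, hP, hb, hmaj⟩ := hX heven _ rfl
  obtain ⟨Q, hQ⟩ : ∃ Q, Q = level K N := ⟨_, rfl⟩
  rw [← hQ] at hP hb hlog hs8 hs2 hmaj
  rw [Real.rpow_one] at hs2
  obtain ⟨L, hLdef⟩ : ∃ L, L = expCount (j + 1 + 1) N := ⟨_, rfl⟩
  rw [← hLdef] at hL hmaj ⊢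
  obtain ⟨hLN, hLlow, hLup, hNL⟩ := hL
  obtain ⟨hlX, -⟩ := hlog
  obtain ⟨l, hldef⟩ : ∃ l, l = Real.log N := ⟨_, rfl⟩
  have hl1 : 1 ≤ l := hldef ▸ hb.one_le_log
  rw [← hldef] at hLlow hLup hlX hs8 hs2 ⊢
  have hN0 : (0 : ℝ) < N := Nat.cast_pos.2 (by linarith [hP.two_le])
  have hQ0 : (0 : ℝ) < Q := Nat.cast_pos.2 (by linarith [hb.two_le])
  have hM0 := hP.M_pos
  have hpow : 2 ^ L ≤ N := le_trans (Nat.le_mul_of_pos_left _ (by omega)) hLN
  have hL1 : 1 ≤ L := by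
    have h : (0 : ℝ) < L := by linarith
    exact_mod_cast h
  have hX3 : N ≤ N ^ 3 := Nat.le_self_pow (by norm_num) N
  have hNM : 2 * N < M := by
    have := hP.cube_le
    have := hP.two_le
    omega
  have hle : ∀ f ∈ tuples (j + 1 + 1) L, powTotal f ≤ N := fun f hf => by
    have := powTotal_le hf
    rw [mul_assoc] at hLN
    omega
  have hsum := norm_sum_minor_le hP hle
  obtain ⟨D, hD⟩ : ∃ D : ℝ, D = (L : ℝ) ^ (j + 1 + 1) * N := ⟨_, rfl⟩
  have hminor : (∑ h ∈ minorSet Q M J, ‖trigSum (fun i => (Λ i : ℂ)) N ((h : ℝ) / M)‖ ^ 2 *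
      ‖powSum L ((h : ℝ) / M)‖ ^ (j + 1 + 1)) / M ≤ D / 120 := by
    rw [div_le_iff₀ hM0, ← sum_filter_add_sum_filter_not _ fun h : ℕ => (1 - η) * L < ‖powSum L ((h : ℝ) / M)‖]
    refine (add_le_add (b := D / 240 * M) (d := D / 240 * M) ?_ ?_).trans (le_of_eq (by ring))
    · refine (sum_le_card_nsmul _ _ ((28000 * N * l ^ 4 / √(Q : ℝ)) ^ 2 * (L : ℝ) ^ (j + 1 + 1))
        fun h hh => ?_).trans ?_
      · exact mul_le_mul (pow_le_pow_left₀ (norm_nonneg _) (hldef ▸ norm_minor_trig_le hP hb.two_le hb.pow_le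
          hb.one_le_log (mem_filter.1 hh).1) 2) (pow_le_pow_left₀ (norm_nonneg _) (norm_powSum_le L _) _)
          (by positivity) (sq_nonneg _)
      rw [nsmul_eq_mul]
      have hc : (((minorSet Q M J).filter fun h : ℕ => (1 - η) * L < ‖powSum L ((h : ℝ) / M)‖).card : ℝ) ≤
          8 * (Q : ℝ) ^ (1 / 2 : ℝ) * M * (16 * ((j + 1 + 1 : ℕ) : ℝ) / N) := by
        refine (le_trans (Nat.cast_le.2 (card_le_card (filter_subset_filter _ sdiff_subset)))
          (hlarge L M hL1 (hpow.trans (le_trans (by omega) hNM.le)))).trans ?_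
        rw [div_eq_mul_one_div]
        refine mul_le_mul (mul_le_mul_of_nonneg_right (mul_le_mul_of_nonneg_left ?_ (by norm_num)) hM0.le) ?_
          (by positivity) (by positivity)
        · rw [Real.rpow_def_of_pos hQ0, Real.exp_le_exp, hσ, div_mul_eq_mul_div, one_mul,
            div_le_iff₀ (by positivity)]
          linarith
        · rw [div_le_div_iff₀ (by positivity) hN0, one_mul]
          exact hNL
      refine (mul_le_mul_of_nonneg_right hc (by positivity)).trans ?_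
      rw [hD, div_pow, Real.sq_sqrt hQ0.le]
      have h1 := mul_le_mul_of_nonneg_left hs8
        (show 0 ≤ (Q : ℝ) ^ (1 / 2 : ℝ) * M * N * (L : ℝ) ^ (j + 1 + 1) / Q by positivity)
      have e : (Q : ℝ) ^ (1 / 2 : ℝ) * (Q : ℝ) ^ (1 / 2 : ℝ) = Q := by
        rw [← Real.rpow_add hQ0]; norm_num
      rw [show (Q : ℝ) ^ (1 / 2 : ℝ) * M * N * (L : ℝ) ^ (j + 1 + 1) / Q * (Q : ℝ) ^ (1 / 2 : ℝ) =
        (Q : ℝ) ^ (1 / 2 : ℝ) * (Q : ℝ) ^ (1 / 2 : ℝ) / Q * (M * N * (L : ℝ) ^ (j + 1 + 1)) by ring, e,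
        div_self hQ0.ne', one_mul] at h1
      refine le_trans (le_of_eq ?_) (le_trans (div_le_div_of_nonneg_right h1 (show (0 : ℝ) ≤ 240 by norm_num))
        (le_of_eq (by ring)))
      field_simp
      ring
    · refine (sum_le_sum (g := fun h : ℕ => ((1 - η) * L) ^ j *
        ‖trigSum (fun i => (Λ i : ℂ)) N ((h : ℝ) / M) * powSum L ((h : ℝ) / M)‖ ^ 2) fun h hh => ?_).trans ?_
      · rw [norm_mul, mul_pow ‖_‖ ‖_‖ 2, show ‖powSum L ((h : ℝ) / M)‖ ^ (j + 1 + 1) =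
          ‖powSum L ((h : ℝ) / M)‖ ^ j * ‖powSum L ((h : ℝ) / M)‖ ^ 2 by rw [← pow_add],
          ← mul_assoc, mul_comm (‖_‖ ^ 2) (‖_‖ ^ j), mul_assoc]
        exact mul_le_mul_of_nonneg_right (pow_le_pow_left₀ (norm_nonneg _) (not_lt.1 (mem_filter.1 hh).2) j)
          (by positivity)
      rw [← mul_sum]
      have h1η : (0 : ℝ) ≤ 1 - η := by linarith
      refine (mul_le_mul_of_nonneg_left ((sum_le_sum_of_subset_of_nonneg ((filter_subset _ _).trans sdiff_subset)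
        fun _ _ _ => sq_nonneg _).trans (hms N L M hP.two_le hpow hNM)) (by positivity)).trans ?_
      rw [← hldef]
      refine (mul_le_mul_of_nonneg_left (mul_le_mul_of_nonneg_left (show (L : ℝ) + l ≤ 3 * L by linarith)
        (by positivity)) (by positivity)).trans ?_
      rw [hD, mul_pow, show (1 - η) ^ j * (L : ℝ) ^ j * (C * M * N * L * (3 * L)) =
        (1 - η) ^ j * (3 * C) * ((L : ℝ) ^ (j + 1 + 1) * N * M) by ring]
      exact (mul_le_mul_of_nonneg_right hj (by positivity)).trans (le_of_eq (by ring))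
  have hW : ∀ f ∈ tuples (j + 1 + 1) L,
      pairW (N - powTotal f) ≤ (goldbachCount (N - powTotal f) : ℝ) * l ^ 2 + 4 * √(N : ℝ) * l ^ 2 := fun f hf => by
    have hn1 : 1 ≤ N - powTotal f := by
      have := powTotal_le hf
      have := hP.two_le
      rw [mul_assoc] at hLN
      omega
    rw [hldef]
    refine (FA.AlmostGoldbach.pairW_le hn1 (Nat.sub_le N _)).trans (add_le_add (mul_le_mul_of_nonneg_left
      (pow_le_pow_left₀ (Real.log_natCast_nonneg _) (Real.log_le_log (Nat.cast_pos.2 hn1)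
        (Nat.cast_le.2 (Nat.sub_le N _))) 2) (Nat.cast_nonneg _)) le_rfl)
  have hsum' : D / 120 ≤ ∑ f ∈ tuples (j + 1 + 1) L, pairW (N - powTotal f) := by
    rw [hD] at hminor ⊢
    linarith
  have h2 := hsum'.trans (sum_le_sum hW)
  rw [sum_add_distrib, sum_const, card_tuples, nsmul_eq_mul, Nat.cast_pow, ← sum_mul] at h2
  have h3 : (L : ℝ) ^ (j + 1 + 1) * (4 * √(N : ℝ) * l ^ 2) ≤ D / 240 := by
    have h4 : √(N : ℝ) * Q ≤ N := by
      refine (mul_le_mul_of_nonneg_left (Real.le_sqrt_of_sq_le ?_) (Real.sqrt_nonneg _)).trans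
        (le_of_eq (Real.mul_self_sqrt hN0.le))
      exact (pow_le_pow_right₀ (Nat.one_le_cast.2 (by linarith [hb.two_le])) (by norm_num)).trans hb.pow_le
    have h5 := mul_le_mul_of_nonneg_left hs2 (Real.sqrt_nonneg (N : ℝ))
    rw [hD, mul_div_assoc]
    refine mul_le_mul_of_nonneg_left ?_ (by positivity)
    linarith
  have h7 : (1 / 2 : ℝ) ^ (j + 1 + 1) * N * l ^ (j + 1 + 1) ≤ D := by
    rw [hD, mul_right_comm, ← mul_pow]
    exact mul_le_mul_of_nonneg_right (pow_le_pow_left₀ (by positivity) (by linarith) _) hN0.le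
  rw [div_le_iff₀ (by positivity)]
  linarith

/-- **Linnik's theorem.** -/
theorem exists_two_primes_add_powers : ∃ k₀ : ℕ, ∀ k, k₀ ≤ k → ∃ N₀ : ℕ, ∀ N, N₀ ≤ N → Even N →
    ∃ p q : ℕ, ∃ a : Fin k → ℕ, p.Prime ∧ q.Prime ∧ (∀ i, 1 ≤ a i) ∧ p + q + ∑ i, 2 ^ a i = N := by
  obtain ⟨k₀, h⟩ := exists_goldbach_powers_count
  refine ⟨k₀, fun k hk => ?_⟩
  obtain ⟨N₀, hN₀⟩ := eventually_atTop.1 (h k hk)
  refine ⟨max N₀ 2, fun N hN heven => ?_⟩
  have h1 := hN₀ N (le_trans (le_max_left _ _) hN) heven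
  have hN2 : 2 ≤ N := le_trans (le_max_right _ _) hN
  have hl : 0 < Real.log N := Real.log_pos (by exact_mod_cast hN2)
  have h2 : (0 : ℝ) < ∑ f ∈ tuples k (expCount k N), (goldbachCount (N - powTotal f) : ℝ) :=
    lt_of_lt_of_le (by positivity) h1
  obtain ⟨f, hf, hne⟩ := exists_ne_zero_of_sum_ne_zero h2.ne'
  obtain ⟨p, hp⟩ := card_ne_zero.1 (Nat.cast_ne_zero.1 hne)
  rw [mem_filter, mem_Icc] at hp
  rw [tuples, Fintype.mem_piFinset] at hf
  refine ⟨p, N - powTotal f - p, f, hp.2.1, hp.2.2, fun i => (mem_Icc.1 (hf i)).1, ?_⟩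
  have := hp.2.2.pos
  rw [show ∑ i, 2 ^ f i = powTotal f from rfl]
  omega

/-- The representations by two primes and `k` powers of two. -/
def powerReps (k N : ℕ) : Finset (ℕ × (Fin k → ℕ)) :=
  (Icc 1 N ×ˢ tuples k (Nat.log 2 N)).filter fun x => x.1.Prime ∧ (N - powTotal x.2 - x.1).Prime

theorem sum_goldbachCount_le (k N : ℕ) :
    ∑ f ∈ tuples k (expCount k N), goldbachCount (N - powTotal f) ≤ (powerReps k N).card := by
  rw [powerReps, card_filter, sum_product_right]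
  refine (sum_le_sum_of_subset ?_).trans (sum_le_sum fun f _ => ?_)
  · intro f hf
    simp only [tuples, Fintype.mem_piFinset, mem_Icc] at hf ⊢
    exact fun i => ⟨(hf i).1, (hf i).2.trans (Nat.log_mono_right (Nat.div_le_self _ _))⟩
  · rw [← card_filter, goldbachCount]
    refine card_le_card fun p hp => ?_
    rw [mem_filter, mem_Icc] at hp ⊢
    exact ⟨⟨hp.1.1, hp.1.2.trans (Nat.sub_le _ _)⟩, hp.2⟩

end FA.LinnikPowersTwo

end
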