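import Fermat.Agent.MontgomeryVaughan.Series

/-!
# `n / φ n` is small against `log n`

`n / φ n ≤ ω n + 1`, and the primes above `A` dividing `n` number at most `log n / log A`.
-/

set_option autoImplicit false
set_option linter.unusedSectionVars false

noncomputable section

open Finset
open FA.MontgomeryVaughan (ratio)
open scoped Classical

namespace FA.LinnikPowersTwo

theorem prod_factor_le_card_add_one (s : Finset ℕ) (hs : ∀ p ∈ s, p.Prime) :
    ∏ p ∈ s, (1 + 1 / ((p : ℝ) - 1)) ≤ (s.card : ℝ) + 1 := by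
  induction s using Finset.induction_on_max with
  | empty => simp
  | insert p s hlt ih =>
    have hp : p.Prime := hs p (mem_insert_self p s)
    have hnot : p ∉ s := fun h => lt_irrefl p (hlt p h)
    rw [prod_insert hnot, card_insert_of_notMem hnot]
    have hcard : s.card + 2 ≤ p := by
      have h1 : s ⊆ Ico 2 p := fun q hq =>
        mem_Ico.2 ⟨(hs q (mem_insert_of_mem hq)).two_le, hlt q hq⟩
      have h2 := card_le_card h1
      rw [Nat.card_Ico] at h2
      have := hp.two_le
      omega
    have hp1 : (0 : ℝ) < (p : ℝ) - 1 := by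
      have : (2 : ℝ) ≤ p := by exact_mod_cast hp.two_le
      linarith
    have hc' : (s.card : ℝ) + 2 ≤ p := by exact_mod_cast hcard
    refine (mul_le_mul_of_nonneg_left (ih fun q hq => hs q (mem_insert_of_mem hq)) (by positivity)).trans ?_
    have h3 : 1 / ((p : ℝ) - 1) * ((s.card : ℝ) + 1) ≤ 1 := by
      rw [div_mul_eq_mul_div, one_mul, div_le_one hp1]
      linarith
    push_cast
    linarith

/-- **`n / φ n = o (log n)`.** -/
theorem exists_ratio_le {ε : ℝ} (hε : 0 < ε) : ∃ C : ℝ, ∀ n : ℕ, 0 < n → ratio n ≤ C + ε * Real.log n := by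
  obtain ⟨A, hA⟩ : ∃ A : ℕ, A = ⌈Real.exp (1 / ε)⌉₊ := ⟨_, rfl⟩
  refine ⟨(A : ℝ) + 2, fun n hn => ?_⟩
  refine (prod_factor_le_card_add_one n.primeFactors fun p hp => Nat.prime_of_mem_primeFactors hp).trans ?_
  obtain ⟨S, hS⟩ : ∃ S, S = n.primeFactors.filter (A < ·) := ⟨_, rfl⟩
  have h1 : (n.primeFactors.card : ℝ) ≤ (A : ℝ) + 1 + S.card := by
    rw [← card_filter_add_card_filter_not (fun p => A < p) (s := n.primeFactors), ← hS, Nat.cast_add,
      add_comm (S.card : ℝ)]
    refine add_le_add ?_ le_rfl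
    refine le_trans (Nat.cast_le.2 (card_le_card (t := range (A + 1)) fun p hp => ?_)) (by simp)
    rw [mem_filter] at hp
    exact mem_range.2 (by omega)
  have h2 : (S.card : ℝ) * (1 / ε) ≤ Real.log n := by
    have h3 : (∏ p ∈ S, p) ≤ n := Nat.le_of_dvd hn
      ((prod_dvd_prod_of_subset _ _ _ (hS ▸ filter_subset _ _)).trans (Nat.prod_primeFactors_dvd n))
    have h4 : Real.exp (1 / ε) ^ S.card ≤ n := by
      refine le_trans ?_ (Nat.cast_le.2 h3)
      rw [Nat.cast_prod, ← prod_const]
      refine prod_le_prod (fun _ _ => (Real.exp_pos _).le) fun p hp => ?_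
      rw [hS, mem_filter] at hp
      exact (Nat.le_ceil _).trans (Nat.cast_le.2 (hA ▸ hp.2.le))
    have h5 := Real.log_le_log (by positivity) h4
    rw [Real.log_pow, Real.log_exp] at h5
    exact h5
  have h6 := mul_le_mul_of_nonneg_left h2 hε.le
  rw [mul_left_comm, mul_one_div_cancel hε.ne', mul_one] at h6
  linarith

end FA.LinnikPowersTwo

end
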