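import Fermat.Agent.LinnikPowersTwo.BadExponents
import Fermat.Agent.LinnikPowersTwo.Conductor
import Fermat.Agent.LinnikPowersTwo.ExcPrime
import Fermat.Agent.LinnikPowersTwo.Ratio

/-!
# The arcs, averaged over the sums of powers of two

Averaged over the `n = N - 2 ^ a₁ - ... - 2 ^ aₖ` the sum over the arcs is at least `N L ^ k / 60`. It is
negative only when the exceptional modulus is large and shares much with `n`, and at least `N / 20` unless
that happens or `n` is divisible by a fixed large prime of the modulus.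
-/

set_option autoImplicit false
set_option linter.unusedSectionVars false

noncomputable section

open Finset Complex Filter
open FA.MontgomeryVaughan
open FA.Gallagher (family mem_family)
open scoped Real Classical Topology Nat

namespace FA.LinnikPowersTwo

/-- The number of exponents. -/
def expCount (k N : ℕ) : ℕ := Nat.log 2 (N / (4 * k))

theorem expCount_pow_le {k N : ℕ} (hN : 4 * k ≤ N) (hk : 0 < k) : 4 * k * 2 ^ expCount k N ≤ N :=
  (Nat.mul_le_mul_left _ (Nat.pow_log_le_self 2 (Nat.div_pos hN (by omega)).ne')).trans (Nat.mul_div_le N _)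

theorem eventually_expCount {k : ℕ} (hk : 0 < k) : ∀ᶠ N : ℕ in atTop,
    4 * k * 2 ^ expCount k N ≤ N ∧ Real.log N / 2 ≤ expCount k N ∧ (expCount k N : ℝ) ≤ 2 * Real.log N ∧
      (N : ℝ) ≤ 16 * k * (2 ^ expCount k N : ℕ) := by
  filter_upwards [eventually_ge_atTop (4 * k), (Real.tendsto_log_atTop.comp
    tendsto_natCast_atTop_atTop).eventually_ge_atTop (4 * Real.log (16 * k))] with N hN hl
  simp only [Function.comp_apply] at hl
  obtain ⟨L, hL⟩ : ∃ L, L = expCount k N := ⟨_, rfl⟩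
  rw [← hL]
  have h1 : 4 * k * 2 ^ L ≤ N := hL ▸ expCount_pow_le hN hk
  have h2 := Nat.lt_pow_succ_log_self one_lt_two (N / (4 * k))
  rw [← expCount, ← hL] at h2
  have h3 : N ≤ 16 * k * 2 ^ L := by
    have h4 := Nat.lt_div_mul_add (a := N) (show 0 < 4 * k by omega)
    have h5 := Nat.mul_le_mul_right (4 * k) (show N / (4 * k) + 1 ≤ 2 ^ (L + 1) from h2)
    rw [pow_succ, add_mul, one_mul] at h5
    have : 1 ≤ k * 2 ^ L := Nat.mul_pos hk (Nat.two_pow_pos L)
    nlinarith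
  have h3' : (N : ℝ) ≤ 16 * k * (2 ^ L : ℕ) := by exact_mod_cast h3
  have hN0 : (0 : ℝ) < N := Nat.cast_pos.2 (by omega)
  have hk' : (1 : ℝ) ≤ k := Nat.one_le_cast.2 hk
  refine ⟨h1, ?_, ?_, h3'⟩
  · have h6 := Real.log_le_log hN0 h3'
    rw [Nat.cast_pow, Real.log_mul (by positivity) (by positivity), Real.log_pow] at h6
    push_cast at h6
    have h7 := mul_le_mul_of_nonneg_left Real.log_two_lt_d9.le (Nat.cast_nonneg (α := ℝ) L)
    have : 0 ≤ Real.log (16 * k) := Real.log_nonneg (by linarith)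
    linarith
  · have h8 : (((2 : ℕ) : ℝ)) ^ L ≤ N := by
      rw [← Nat.cast_pow]
      exact Nat.cast_le.2 (le_trans (Nat.le_mul_of_pos_left _ (by omega)) h1)
    have h6 := Real.log_le_log (by positivity) h8
    rw [Real.log_pow, Nat.cast_ofNat] at h6
    have h7 := mul_le_mul_of_nonneg_left Real.log_two_gt_d9.le (Nat.cast_nonneg (α := ℝ) L)
    have := Real.log_natCast_nonneg N
    linarith

theorem even_powTotal {k L : ℕ} {f : Fin k → ℕ} (hf : f ∈ tuples k L) : Even (powTotal f) := by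
  rw [tuples, Fintype.mem_piFinset] at hf
  refine Finset.even_sum _ fun i _ => Nat.even_pow.2 ⟨even_two, ?_⟩
  have := (mem_Icc.1 (hf i)).1
  omega

/-- Tuples bad at one prime or by a large common divisor, counted. -/
theorem sum_tuples_ge {k L : ℕ} (v : (Fin (k + 1) → ℕ) → ℝ) {A B : ℝ} (hA : 0 ≤ A) (hB : 0 ≤ B)
    (P Q : ℕ → Prop) {c d : ℕ} (hc : ∀ s, s ≤ k * 2 ^ L → ((Icc 1 L).filter fun a => P (2 ^ a + s)).card ≤ c)
    (hd : ∀ s, s ≤ k * 2 ^ L → ((Icc 1 L).filter fun a => Q (2 ^ a + s)).card ≤ d)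
    (hv : ∀ f ∈ tuples (k + 1) L,
      A - (if P (powTotal f) then A else 0) - (if Q (powTotal f) then B else 0) ≤ v f) :
    (L : ℝ) ^ k * (A * L - A * c - B * d) ≤ ∑ f ∈ tuples (k + 1) L, v f := by
  refine le_trans ?_ (sum_le_sum hv)
  rw [sum_sub_distrib, sum_sub_distrib, sum_const, card_tuples, ← sum_filter, ← sum_filter, sum_const, sum_const,
    nsmul_eq_mul, nsmul_eq_mul, nsmul_eq_mul, Nat.cast_pow]
  have h1 : (((tuples (k + 1) L).filter fun f => P (powTotal f)).card : ℝ) ≤ (c : ℝ) * (L : ℝ) ^ k := by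
    exact_mod_cast card_filter_tuples_le P hc
  have h2 : (((tuples (k + 1) L).filter fun f => Q (powTotal f)).card : ℝ) ≤ (d : ℝ) * (L : ℝ) ^ k := by
    exact_mod_cast card_filter_tuples_le Q hd
  have := mul_le_mul_of_nonneg_right h1 hA
  have := mul_le_mul_of_nonneg_right h2 hB
  rw [pow_succ]
  linarith

/-- A common divisor and its odd part. -/
theorem gcd_le_eight_mul {r : ℕ} (hr : 0 < r) (h2 : r.factorization 2 ≤ 3) (n : ℕ) :
    Nat.gcd n r ≤ 8 * Nat.gcd n (r / 2 ^ r.factorization 2) := by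
  obtain ⟨m, hm⟩ : ∃ m, m = r / 2 ^ r.factorization 2 := ⟨_, rfl⟩
  rw [← hm]
  have hm0 : 0 < m := hm ▸ Nat.ordCompl_pos 2 hr.ne'
  have e : 2 ^ r.factorization 2 * m = r := hm ▸ Nat.ordProj_mul_ordCompl_eq_self r 2
  conv_lhs => rw [← e]
  refine (Nat.le_of_dvd ?_ (Nat.gcd_mul_right_dvd_mul_gcd _ _ _)).trans (Nat.mul_le_mul_right _ ?_)
  · exact Nat.mul_pos (Nat.gcd_pos_of_pos_right _ (by positivity)) (Nat.gcd_pos_of_pos_right _ hm0)
  · exact (Nat.gcd_le_right _ (by positivity)).trans ((Nat.pow_le_pow_right two_pos h2).trans (by norm_num))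

/-- **The arcs on average over the powers.** -/
theorem exists_majorSum_ge : ∃ K : ℕ, 40 ≤ K ∧ ∀ k : ℕ, ∀ᶠ N : ℕ in atTop, Even N →
    ∀ Q, Q = level K N → ∃ H M J Y : ℕ, Params N Q H M J Y ∧ LevelBounds N Q ∧
      ((expCount (k + 1) N : ℝ)) ^ (k + 1) * N / 60 ≤
        ∑ f ∈ tuples (k + 1) (expCount (k + 1) N), (majorSum Q N M J (N - powTotal f)).re := by
  obtain ⟨P₀, hP₀⟩ : ∃ P₀ : ℕ, P₀ = max 2 ⌈crossEta⁻¹⌉₊ := ⟨_, rfl⟩
  obtain ⟨K, θ, hK, hθ0, -, hmain⟩ := exists_major_ge (8 * P₀ ! + 1)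
  have hK0 : 0 < K := by omega
  obtain ⟨T, hT⟩ : ∃ T : ℕ, T = ⌈32 / θ⌉₊ := ⟨_, rfl⟩
  have hT0 : 0 < T := hT ▸ Nat.ceil_pos.2 (by positivity)
  obtain ⟨c₀, hc₀⟩ : ∃ c₀ : ℕ, c₀ = T * (8 * K * (T * T) + 1) := ⟨_, rfl⟩
  have hpz := one_le_pairZ
  obtain ⟨ε, hεdef⟩ : ∃ ε : ℝ, ε = 1 / (480 * (20 * pairZ * ((c₀ : ℝ) + 1))) := ⟨_, rfl⟩
  obtain ⟨C, hC⟩ := exists_ratio_le (show 0 < ε by rw [hεdef]; positivity)
  refine ⟨K, hK, fun k => ?_⟩
  filter_upwards [hmain, eventually_expCount (show 0 < k + 1 by omega), eventually_log_le hK0,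
    eventually_log_pow_le hK0 0 8 (show (0 : ℝ) < θ / 16 by positivity),
    eventually_log_pow_le hK0 0 crossEta⁻¹ (show (0 : ℝ) < θ / 4 by positivity),
    (Real.tendsto_log_atTop.comp tendsto_natCast_atTop_atTop).eventually_ge_atTop
      (max (4 * (K : ℝ) * (T * T : ℕ)) (480 * ((1 + c₀) / 20 + 20 * pairZ * c₀ * |C|)))]
    with N hX hL hlog hs8 hsη hl heven Q hQeq
  obtain ⟨H, M, J, Y, hPar, hb, hquot, hcases⟩ := hX Q hQeq
  refine ⟨H, M, J, Y, hPar, hb, ?_⟩
  simp only [Function.comp_apply, max_le_iff] at hl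
  obtain ⟨hlT, hlC⟩ := hl
  rw [← hQeq] at hlog hs8 hsη
  rw [pow_zero, mul_one] at hs8 hsη
  obtain ⟨L, hLdef⟩ : ∃ L, L = expCount (k + 1) N := ⟨_, rfl⟩
  rw [← hLdef] at hL ⊢
  obtain ⟨hLN, hLlow, hLup, -⟩ := hL
  obtain ⟨hlX, -⟩ := hlog
  have hQ2 := hb.two_le
  have hQ0 : (0 : ℝ) < Q := Nat.cast_pos.2 (by omega)
  have hQ1 : (1 : ℝ) < Q := by exact_mod_cast (show 1 < Q by omega)
  have hN0 : (0 : ℝ) < N := Nat.cast_pos.2 (by linarith [hPar.two_le])
  have hl0 : 0 ≤ Real.log N := Real.log_natCast_nonneg N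
  have htot : ∀ f ∈ tuples (k + 1) L, 4 * powTotal f ≤ N := fun f hf => by
    have := powTotal_le hf
    rw [mul_assoc] at hLN
    omega
  have hn : ∀ f ∈ tuples (k + 1) L, N - powTotal f ∈ Ioc (N / 2) N ∧ Even (N - powTotal f) := fun f hf => by
    have := htot f hf
    have h2 := hPar.two_le
    exact ⟨mem_Ioc.2 ⟨by omega, by omega⟩, (Nat.even_sub (by omega)).2 (iff_of_true heven (even_powTotal hf))⟩
  have hclose : ∀ n ≤ N, ‖majorSum Q N M J n -
      ∑ u ∈ family Q, ∑ v ∈ family Q, pairCoef u v Q n * arcInt M J (charSum u N) (charSum v N) n‖ ≤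
        2 * N * (Q : ℝ) ^ (-(1 / 8) : ℝ) := fun n hn => by
    refine (norm_majorSum_sub_le hPar hQ2 hb.pow_le hb.one_le_log hb.log_four_le hn).trans ?_
    have : 0 ≤ (N : ℝ) * (Q : ℝ) ^ (-(1 / 8) : ℝ) := by positivity
    linarith
  have hLk : (L : ℝ) ^ (k + 1) * N / 60 = (L : ℝ) ^ k * (L * N / 60) := by rw [pow_succ]; ring
  rcases hcases with hP | ⟨u, hu, -, hu2, hr₁, hr4, hP⟩
  · refine le_trans ?_ (card_nsmul_le_sum _ _ ((N : ℝ) / 20) fun f hf =>
      hP _ (hn f hf).1 (hn f hf).2 _ (hclose _ (Nat.sub_le N _)))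
    rw [card_tuples, nsmul_eq_mul, Nat.cast_pow]
    have : 0 ≤ (L : ℝ) ^ (k + 1) * N := by positivity
    linarith
  obtain ⟨hu0, huQ, huprim⟩ := mem_family.1 hu
  have : NeZero u.1 := ⟨by omega⟩
  have hr1 : (1 : ℝ) ≤ u.1 := Nat.one_le_cast.2 hu0
  obtain ⟨p, hp, hpP, hpr⟩ := exists_large_prime_factor huprim hu2 (P := P₀) (by omega)
  have hp2 : p ≠ 2 := by
    have : 2 ≤ P₀ := hP₀ ▸ le_max_left _ _
    omega
  have hpη : 4 / (p : ℝ) ≤ 4 * crossEta := by
    rw [div_eq_mul_one_div]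
    refine mul_le_mul_of_nonneg_left ?_ (by norm_num)
    rw [one_div]
    refine inv_le_of_inv_le₀ crossEta_pos ((Nat.le_ceil _).trans (Nat.cast_le.2 ?_))
    have : ⌈crossEta⁻¹⌉₊ ≤ P₀ := hP₀ ▸ le_max_right _ _
    omega
  obtain ⟨bad, hbad⟩ : ∃ bad : ℕ → Prop, bad = fun s =>
      (Q : ℝ) ^ θ < u.1 ∧ (Q : ℝ) ^ (θ / 8) < (Nat.gcd (N - s) u.1 : ℝ) := ⟨_, rfl⟩
  obtain ⟨B, hBdef⟩ : ∃ B : ℝ, B = (N : ℝ) / 20 + 20 * pairZ * (|C| + ε * Real.log N) * N := ⟨_, rfl⟩
  have hε0 : 0 ≤ ε := by rw [hεdef]; positivity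
  have hB0 : 0 ≤ B := by rw [hBdef]; positivity
  obtain ⟨pdvd, hpdvd⟩ : ∃ pdvd : ℕ → Prop, pdvd = fun s => p ∣ N - s := ⟨_, rfl⟩
  have hv : ∀ f ∈ tuples (k + 1) L, (N : ℝ) / 20 - (if pdvd (powTotal f) then (N : ℝ) / 20 else 0) -
      (if bad (powTotal f) then B else 0) ≤ (majorSum Q N M J (N - powTotal f)).re := fun f hf => by
    obtain ⟨hnI, hnE⟩ := hn f hf
    obtain ⟨n, hndef⟩ : ∃ n, n = N - powTotal f := ⟨_, rfl⟩
    have hnle : n ≤ N := hndef ▸ Nat.sub_le N _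
    rw [← hndef] at hnI hnE ⊢
    have hn0 : n ≠ 0 := by have := (mem_Ioc.1 hnI).1; omega
    obtain ⟨hlow, hsmallD, hshare⟩ := hP n hnI hnE _ (hclose n hnle)
    have hN20 : 0 ≤ (N : ℝ) / 20 := by positivity
    by_cases hb' : bad (powTotal f)
    · rw [if_pos hb']
      have h1 : ratio n ≤ |C| + ε * Real.log N := by
        refine (hC n (Nat.pos_of_ne_zero hn0)).trans (add_le_add (le_abs_self C) (mul_le_mul_of_nonneg_left ?_ hε0))
        exact Real.log_le_log (Nat.cast_pos.2 (Nat.pos_of_ne_zero hn0)) (Nat.cast_le.2 hnle)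
      have h2 := mul_le_mul_of_nonneg_right (mul_le_mul_of_nonneg_left h1 (show 0 ≤ 20 * pairZ by linarith)) hN0.le
      rw [hBdef]
      split_ifs <;> linarith
    rw [if_neg hb', sub_zero]
    simp only [hbad, ← hndef, not_and] at hb'
    by_cases hrθ : (Q : ℝ) ^ θ < u.1
    · refine le_trans ?_ (hsmallD (norm_exc_le_of_gcd huprim hu2 hn0 Q ?_))
      · split_ifs <;> linarith
      refine le_trans ?_ (inv_le_of_inv_le₀ crossEta_pos hsη)
      rw [← Real.rpow_neg hQ0.le]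
      refine (mul_le_mul (pow_le_pow_left₀ (Nat.cast_nonneg _) (not_lt.1 (hb' hrθ)) 2)
        (Real.rpow_le_rpow_of_nonpos (by positivity) hrθ.le (show (-(1 / 2) : ℝ) ≤ 0 by norm_num)) (by positivity)
        (by positivity)).trans (le_of_eq ?_)
      rw [← Real.rpow_mul_natCast hQ0.le, ← Real.rpow_mul hQ0.le, ← Real.rpow_add hQ0]
      congr 1
      push_cast
      ring
    by_cases hpn : p ∣ n
    · rw [if_pos (show pdvd (powTotal f) by simpa only [hpdvd, ← hndef] using hpn), sub_self]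
      refine le_trans (by positivity) (hshare (fun hc => ?_) (not_lt.1 hrθ))
      exact hp.not_dvd_one (hc ▸ Nat.dvd_gcd hpn (Nat.dvd_of_factorization_pos (by omega)))
    · rw [if_neg (show ¬pdvd (powTotal f) by simpa only [hpdvd, ← hndef] using hpn), sub_zero]
      exact hsmallD ((norm_exc_le_of_prime huprim hu2 hn0 hnE Q hp hpr hpn).trans
        (mul_le_mul_of_nonneg_right hpη (mul_nonneg (by linarith) (zero_le_one.trans (one_le_ratio n)))))
  obtain ⟨w, hw⟩ : ∃ w : ℕ, w = ⌊Real.log Q / (T * T : ℕ)⌋₊ := ⟨_, rfl⟩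
  have hTT : (1 : ℝ) ≤ (T * T : ℕ) := Nat.one_le_cast.2 (Nat.mul_pos hT0 hT0)
  have hlQ : 2 * ((T * T : ℕ) : ℝ) ≤ Real.log Q := by
    refine le_of_mul_le_mul_left ?_ (show (0 : ℝ) < 2 * K by positivity)
    linarith
  have hwle : (w : ℝ) * (T * T : ℕ) ≤ Real.log Q := by
    rw [hw, ← le_div_iff₀ (by linarith)]
    exact Nat.floor_le (by positivity)
  have hwge : Real.log Q ≤ 2 * ((w : ℝ) * (T * T : ℕ)) := by
    have h1 := Nat.lt_floor_add_one (Real.log Q / (T * T : ℕ))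
    rw [← hw, div_lt_iff₀ (by linarith)] at h1
    linarith
  have hw0 : 0 < w := by
    rcases Nat.eq_zero_or_pos w with h0 | h0
    · rw [h0, Nat.cast_zero, zero_mul] at hwge; linarith
    · exact h0
  have hLw : L / w ≤ 8 * K * (T * T) := by
    refine (Nat.div_le_iff_le_mul_add_pred hw0).2 (le_trans ?_ (Nat.le_add_right _ _))
    have : (L : ℝ) ≤ ((w * (8 * K * (T * T)) : ℕ) : ℝ) := by
      have := mul_le_mul_of_nonneg_left hwge (show (0 : ℝ) ≤ 4 * K by positivity)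
      push_cast
      push_cast at this
      linarith
    exact_mod_cast this
  have hd : ∀ s, s ≤ k * 2 ^ L → ((Icc 1 L).filter fun a => bad (2 ^ a + s)).card ≤ c₀ := by
    intro s hs
    obtain ⟨r', hr'⟩ : ∃ r', r' = u.1 / 2 ^ u.1.factorization 2 := ⟨_, rfl⟩
    have hr'0 : 0 < r' := hr' ▸ Nat.ordCompl_pos 2 (NeZero.ne u.1)
    have hodd : Odd r' := by
      rw [hr', ← Nat.not_even_iff_odd, even_iff_two_dvd]
      exact Nat.not_dvd_ordCompl Nat.prime_two (NeZero.ne u.1)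
    refine le_trans (le_trans (card_le_card fun a ha => ?_) (card_gcd_large_le (N := N - s) (T := T)
      (D := (Q : ℝ) ^ (θ / 16)) hr'0 hodd hw0 (Real.one_le_rpow hQ1.le (by positivity)) (fun a ha => ?_) ?_))
      (hc₀ ▸ Nat.mul_le_mul_left T (Nat.add_le_add_right hLw 1))
    · rw [mem_filter] at ha ⊢
      refine ⟨ha.1, ?_⟩
      rw [hbad] at ha
      obtain ⟨-, -, hg⟩ := ha
      rw [Nat.sub_sub, add_comm s]
      have h1 : (Nat.gcd (N - (2 ^ a + s)) u.1 : ℝ) ≤ 8 * (Nat.gcd (N - (2 ^ a + s)) r' : ℝ) := by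
        exact_mod_cast hr' ▸ gcd_le_eight_mul (NeZero.pos u.1) (factorization_two_le huprim hu2) _
      have h2 := mul_le_mul_of_nonneg_right hs8 (show 0 ≤ (Q : ℝ) ^ (θ / 16) by positivity)
      rw [← Real.rpow_add hQ0, show θ / 16 + θ / 16 = θ / 8 by ring] at h2
      linarith
    · have h1 := Nat.pow_le_pow_right (n := 2) two_pos ha
      have h2 : 0 < 2 ^ L := Nat.two_pow_pos L
      rw [mul_assoc, add_mul, one_mul] at hLN
      omega
    · have h1 : (2 : ℝ) ^ (w * (T * T)) < Q := by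
        rw [← Real.exp_log (show (0 : ℝ) < 2 ^ (w * (T * T)) by positivity), ← Real.exp_log hQ0, Real.exp_lt_exp,
          Real.log_pow]
        push_cast
        push_cast at hwle
        have h3 : 0 < Real.log Q := Real.log_pos hQ1
        have h4 := mul_le_mul_of_nonneg_right hwle (Real.log_pos one_lt_two).le
        have h5 := mul_lt_mul_of_pos_left (show Real.log 2 < 1 by linarith [Real.log_two_lt_d9]) h3
        linarith
      have h2 : (r' : ℝ) ≤ Q := Nat.cast_le.2 ((hr' ▸ Nat.div_le_self _ _).trans huQ)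
      refine lt_of_lt_of_le (mul_lt_mul' h2 h1 (by positivity) hQ0) ?_
      rw [← Real.rpow_mul_natCast hQ0.le, ← sq, ← Real.rpow_natCast]
      refine Real.rpow_le_rpow_of_exponent_le hQ1.le ?_
      have h3 := Nat.le_ceil (32 / θ)
      rw [← hT, div_le_iff₀ hθ0] at h3
      push_cast
      linarith
  have hc : ∀ s, s ≤ k * 2 ^ L → ((Icc 1 L).filter fun a => pdvd (2 ^ a + s)).card ≤ L / 2 + 1 := by
    intro s hs
    simp only [hpdvd]
    simp only [← Nat.sub_sub, Nat.sub_right_comm N _ s]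
    refine card_dvd_sub_le hp hp2 L fun a ha => ?_
    have h1 := Nat.pow_le_pow_right (n := 2) two_pos ha
    rw [mul_assoc, add_mul, one_mul] at hLN
    omega
  refine le_trans ?_ (sum_tuples_ge (fun f => (majorSum Q N M J (N - powTotal f)).re) (show 0 ≤ (N : ℝ) / 20 by
    positivity) hB0 pdvd bad hc hd hv)
  rw [hLk]
  refine mul_le_mul_of_nonneg_left ?_ (by positivity)
  have hhalf : ((L / 2 + 1 : ℕ) : ℝ) ≤ (L : ℝ) / 2 + 1 := by
    push_cast
    exact add_le_add (Nat.cast_div_le.trans (le_of_eq (by norm_num))) le_rfl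
  have hεc : 20 * pairZ * c₀ * ε ≤ 1 / 480 := by
    have h1 : 20 * pairZ * (c₀ : ℝ) ≤ 20 * pairZ * ((c₀ : ℝ) + 1) :=
      mul_le_mul_of_nonneg_left (by linarith) (by linarith)
    refine (mul_le_mul_of_nonneg_right h1 hε0).trans (le_of_eq ?_)
    rw [hεdef]
    field_simp
  have t1 := mul_le_mul_of_nonneg_left hhalf (show 0 ≤ (N : ℝ) / 20 by positivity)
  have t2 := mul_le_mul_of_nonneg_left (mul_le_mul_of_nonneg_right hεc hl0) hN0.le
  have t3 := mul_le_mul_of_nonneg_left hlC hN0.le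
  have t4 := mul_le_mul_of_nonneg_left hLlow hN0.le
  rw [hBdef]
  linarith

end FA.LinnikPowersTwo

end
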