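import Fermat.Agent.ThreePrimes.Exponential
import Mathlib.Algebra.BigOperators.Ring.Finset

/-!
# The exponential sum over powers of two

`G(x) = ∑_{a ≤ L} e(2 ^ a x)`. Where `|G| > (1 - η) L` all but `8 η L` of the `2 ^ a x` are nearer than
`1 / 4` to an integer, so that the binary digits of `x` change only there: at most `M X ^ (- c)` points of
the grid, with `c` near `1`.
-/

set_option autoImplicit false
set_option linter.unusedSectionVars false

noncomputable section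

open Finset Complex
open FA.ThreePrimes (eAdd nearDist norm_eAdd)
open scoped Real ComplexConjugate Classical

namespace FA.LinnikPowersTwo

/-- `∑_{a ≤ L} e(2 ^ a x)`. -/
def powSum (L : ℕ) (x : ℝ) : ℂ := ∑ a ∈ Icc 1 L, eAdd (((2 ^ a : ℕ) : ℝ) * x)

theorem norm_powSum_le (L : ℕ) (x : ℝ) : ‖powSum L x‖ ≤ L := by
  refine (norm_sum_le _ _).trans (le_of_eq ?_)
  simp [norm_eAdd]

theorem norm_sub_sq_eq {z u : ℂ} (hz : ‖z‖ = 1) (hu : ‖u‖ = 1) : ‖z - u‖ ^ 2 = 2 - 2 * (z * conj u).re := by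
  rw [Complex.sq_norm, Complex.normSq_sub, ← Complex.sq_norm, ← Complex.sq_norm, hz, hu]
  ring

theorem exists_unit_conj (S : ℂ) : ∃ u : ℂ, ‖u‖ = 1 ∧ (S * conj u).re = ‖S‖ := by
  rcases eq_or_ne S 0 with rfl | hS
  · exact ⟨1, norm_one, by simp⟩
  have hS0 : ‖S‖ ≠ 0 := norm_ne_zero_iff.2 hS
  refine ⟨S / (‖S‖ : ℂ), ?_, ?_⟩
  · rw [norm_div, Complex.norm_real, norm_norm, div_self hS0]
  · rw [map_div₀, Complex.conj_ofReal, mul_div_assoc', Complex.mul_conj', ← Complex.ofReal_pow,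
      ← Complex.ofReal_div, Complex.ofReal_re, sq, mul_div_assoc, div_self hS0, mul_one]

/-- A sum of powers near its length moves little under squaring. -/
theorem sum_norm_sub_one_sq_le (L : ℕ) (x : ℝ) :
    ∑ a ∈ Icc 1 (L - 1), ‖eAdd (((2 ^ a : ℕ) : ℝ) * x) - 1‖ ^ 2 ≤ 8 * ((L : ℝ) - ‖powSum L x‖) := by
  obtain ⟨z, hz⟩ : ∃ z : ℕ → ℂ, z = fun a => eAdd (((2 ^ a : ℕ) : ℝ) * x) := ⟨_, rfl⟩
  obtain ⟨u, hu, hu2⟩ := exists_unit_conj (powSum L x)
  have hz1 : ∀ a, ‖z a‖ = 1 := fun a => by rw [hz]; exact norm_eAdd _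
  have hsum : ∑ a ∈ Icc 1 L, ‖z a - u‖ ^ 2 = 2 * ((L : ℝ) - ‖powSum L x‖) := by
    simp only [norm_sub_sq_eq (hz1 _) hu, sum_sub_distrib, sum_const, Nat.card_Icc, ← mul_sum,
      ← Complex.re_sum, ← sum_mul]
    rw [show ∑ a ∈ Icc 1 L, z a = powSum L x by rw [hz]; rfl, hu2, nsmul_eq_mul]
    rw [Nat.add_sub_cancel]
    ring
  have hstep : ∀ a, ‖eAdd (((2 ^ a : ℕ) : ℝ) * x) - 1‖ ^ 2 ≤ 2 * ‖z (a + 1) - u‖ ^ 2 + 2 * ‖z a - u‖ ^ 2 :=
    fun a => by
    have e : z (a + 1) = z a * z a := by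
      rw [hz]
      simp only
      rw [← FA.ThreePrimes.eAdd_add]
      congr 1
      push_cast
      ring
    have h1 : ‖eAdd (((2 ^ a : ℕ) : ℝ) * x) - 1‖ = ‖z (a + 1) - z a‖ := by
      rw [e, show z a * z a - z a = z a * (z a - 1) by ring, norm_mul, hz1, one_mul, hz]
    have h2 : ‖z (a + 1) - z a‖ ≤ ‖z (a + 1) - u‖ + ‖z a - u‖ := by
      simpa [norm_sub_rev u] using norm_sub_le_norm_sub_add_norm_sub (z (a + 1)) u (z a)
    rw [h1]
    refine (pow_le_pow_left₀ (norm_nonneg _) h2 2).trans ?_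
    linarith [sq_nonneg (‖z (a + 1) - u‖ - ‖z a - u‖)]
  refine (sum_le_sum fun a _ => hstep a).trans ?_
  rw [sum_add_distrib, ← mul_sum, ← mul_sum]
  have s1 : ∑ a ∈ Icc 1 (L - 1), ‖z (a + 1) - u‖ ^ 2 ≤ ∑ a ∈ Icc 1 L, ‖z a - u‖ ^ 2 := by
    rw [← sum_image (g := fun a => a + 1) (f := fun a => ‖z a - u‖ ^ 2)
      fun a _ b _ h => Nat.add_right_cancel h]
    refine sum_le_sum_of_subset_of_nonneg (fun b hb => ?_) fun _ _ _ => sq_nonneg _
    obtain ⟨a, ha, rfl⟩ := mem_image.1 hb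
    rw [mem_Icc] at ha ⊢
    omega
  have s2 : ∑ a ∈ Icc 1 (L - 1), ‖z a - u‖ ^ 2 ≤ ∑ a ∈ Icc 1 L, ‖z a - u‖ ^ 2 :=
    sum_le_sum_of_subset_of_nonneg (Icc_subset_Icc_right (Nat.sub_le L 1)) fun _ _ _ => sq_nonneg _
  linarith

/-- The leading digits. -/
def leadDigits (M h a : ℕ) : ℕ := 2 ^ a * h / M

theorem leadDigits_div_two (M h a : ℕ) : leadDigits M h (a + 1) / 2 = leadDigits M h a := by
  rw [leadDigits, leadDigits, pow_succ', mul_assoc, Nat.div_div_eq_div_mul, mul_comm M 2,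
    Nat.mul_div_mul_left _ _ two_pos]

/-- A digit changes only where `2 ^ a x` is at least `1 / 4` from the integers. -/
theorem sq_norm_ge_of_digits_ne {M h a : ℕ} (hM : 0 < M)
    (hne : leadDigits M h (a + 2) % 2 ≠ leadDigits M h (a + 1) % 2) :
    1 ≤ ‖eAdd (((2 ^ a : ℕ) : ℝ) * ((h : ℝ) / M)) - 1‖ ^ 2 := by
  obtain ⟨r, hr⟩ : ∃ r, r = 2 ^ a * h % M := ⟨_, rfl⟩
  obtain ⟨q, hq⟩ : ∃ q, q = 2 ^ a * h / M := ⟨_, rfl⟩
  have hqr : 2 ^ a * h = M * q + r := by rw [hq, hr, Nat.div_add_mod]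
  have hrM : r < M := hr ▸ Nat.mod_lt _ hM
  have d1 : leadDigits M h (a + 1) = 2 * q + 2 * r / M := by
    rw [leadDigits, show 2 ^ (a + 1) * h = 2 * r + M * (2 * q) by rw [pow_succ', mul_assoc, hqr]; ring,
      Nat.add_mul_div_left _ _ hM, add_comm]
  have d2 : leadDigits M h (a + 2) = 4 * q + 4 * r / M := by
    rw [leadDigits, show 2 ^ (a + 2) * h = 4 * r + M * (4 * q) by rw [pow_add, mul_right_comm, hqr]; ring,
      Nat.add_mul_div_left _ _ hM, add_comm]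
  have hmid : M ≤ 4 * r ∧ 4 * r ≤ 3 * M := by
    by_contra hc
    apply hne
    rw [d1, d2]
    rcases lt_or_ge (4 * r) M with h4 | h4
    · rw [Nat.div_eq_of_lt h4, Nat.div_eq_of_lt (show 2 * r < M by omega)]
      omega
    · have h3 : 3 * M < 4 * r := by omega
      rw [Nat.div_eq_of_lt_le (show 3 * M ≤ 4 * r by omega) (show 4 * r < (3 + 1) * M by omega),
        Nat.div_eq_of_lt_le (show 1 * M ≤ 2 * r by omega) (show 2 * r < (1 + 1) * M by omega)]
      omega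
  have hM' : (0 : ℝ) < M := Nat.cast_pos.2 hM
  obtain ⟨t, ht⟩ : ∃ t : ℝ, t = (r : ℝ) / M := ⟨_, rfl⟩
  have harg : eAdd (((2 ^ a : ℕ) : ℝ) * ((h : ℝ) / M)) = eAdd t := by
    rw [← FA.ThreePrimes.eAdd_add_intCast t (q : ℤ)]
    congr 1
    rw [← mul_div_assoc, ← Nat.cast_mul, hqr, ht, Int.cast_natCast]
    push_cast
    field_simp
    ring
  have ht1 : 1 / 4 ≤ t ∧ t ≤ 3 / 4 := by
    rw [ht, div_le_div_iff₀ (by norm_num) hM', div_le_div_iff₀ hM' (by norm_num)]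
    constructor
    · rw [one_mul, mul_comm]; exact_mod_cast hmid.1
    · rw [mul_comm]; exact_mod_cast hmid.2
  rw [harg, norm_sub_sq_eq (norm_eAdd t) norm_one, map_one, mul_one, eAdd, Complex.exp_ofReal_mul_I_re]
  have hcos : Real.cos (2 * π * t) ≤ 0 :=
    Real.cos_nonpos_of_pi_div_two_le_of_le (by nlinarith [Real.pi_pos]) (by nlinarith [Real.pi_pos])
  linarith

/-- The changes of digit. -/
def digitChanges (L M h : ℕ) : Finset ℕ :=
  (Icc 1 (L - 1)).filter fun a => leadDigits M h (a + 2) % 2 ≠ leadDigits M h (a + 1) % 2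

theorem card_digitChanges_le {M : ℕ} (hM : 0 < M) (L h : ℕ) :
    ((digitChanges L M h).card : ℝ) ≤ 8 * ((L : ℝ) - ‖powSum L ((h : ℝ) / M)‖) := by
  refine le_trans ?_ (sum_norm_sub_one_sq_le L _)
  refine le_trans ?_ (sum_le_sum_of_subset_of_nonneg (filter_subset (fun a =>
    leadDigits M h (a + 2) % 2 ≠ leadDigits M h (a + 1) % 2) _) fun _ _ _ => sq_nonneg _)
  refine le_trans (le_of_eq (by rw [digitChanges, nsmul_eq_mul, mul_one]))
    (card_nsmul_le_sum _ _ (1 : ℝ) fun a ha => sq_norm_ge_of_digits_ne hM (mem_filter.1 ha).2)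

/-- The first two digits and the changes determine the rest. -/
theorem leadDigits_ext {L M h h' : ℕ} (h2 : leadDigits M h 2 = leadDigits M h' 2)
    (hT : digitChanges L M h = digitChanges L M h') {a : ℕ} (ha : 2 ≤ a) (haL : a ≤ L + 1) :
    leadDigits M h a = leadDigits M h' a := by
  induction a, ha using Nat.le_induction with
  | base => exact h2
  | succ k hk ih =>
    have e := ih (by omega)
    obtain ⟨i, rfl⟩ : ∃ i, k = i + 1 := ⟨k - 1, by omega⟩
    have p1 := leadDigits_div_two M h (i + 1)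
    have p2 := leadDigits_div_two M h' (i + 1)
    have hmem : i ∈ Icc 1 (L - 1) := mem_Icc.2 (by omega)
    have hiff := iff_of_eq (congrArg (i ∈ ·) hT)
    simp only [digitChanges, mem_filter, hmem, true_and] at hiff
    rw [show i + 1 + 1 = i + 2 from rfl] at p1 p2 ⊢
    omega

/-- Few sets. -/
theorem card_small_sets_le (s : Finset ℕ) {y : ℝ} (hy : 0 < y) (hy1 : y ≤ 1) {m : ℝ} :
    ((s.powerset.filter fun T => (T.card : ℝ) ≤ m).card : ℝ) ≤ (1 + y) ^ s.card * y ^ (-m) := by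
  rw [Real.rpow_neg hy.le, ← div_eq_mul_inv, le_div_iff₀ (by positivity), ← nsmul_eq_mul]
  refine (card_nsmul_le_sum (s.powerset.filter fun T => (T.card : ℝ) ≤ m) (fun T => y ^ T.card) _
    fun T hT => ?_).trans ((sum_le_sum_of_subset_of_nonneg (filter_subset _ _) fun T _ _ => by positivity).trans
      (le_of_eq ?_))
  · rw [← Real.rpow_natCast]
    exact Real.rpow_le_rpow_of_exponent_ge hy hy1 (mem_filter.1 hT).2
  · rw [add_comm, ← sum_pow_mul_eq_add_pow]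
    simp

/-- A cell. -/
theorem card_cell_le {M : ℕ} (hM : 0 < M) (a K : ℕ) :
    ((((range M).filter fun h => leadDigits M h a = K).card : ℕ) : ℝ) ≤ (M : ℝ) / (2 ^ a : ℕ) + 1 := by
  obtain ⟨S, hS⟩ : ∃ S, S = (range M).filter fun h => leadDigits M h a = K := ⟨_, rfl⟩
  rw [← hS]
  rcases S.eq_empty_or_nonempty with hne | hne
  · rw [hne, card_empty, Nat.cast_zero]; positivity
  have hmem : ∀ h ∈ S, M * K ≤ 2 ^ a * h ∧ 2 ^ a * h < M * K + M := fun h hh => by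
    rw [hS, mem_filter] at hh
    have h1 := Nat.mul_div_le (2 ^ a * h) M
    have h2 := Nat.lt_div_mul_add (a := 2 ^ a * h) hM
    rw [leadDigits] at hh
    rw [hh.2] at h1 h2
    rw [mul_comm K] at h2
    exact ⟨h1, h2⟩
  have hle : S.card ≤ S.max' hne + 1 - S.min' hne := by
    refine le_trans (card_le_card fun h hh => mem_Icc.2 ⟨S.min'_le h hh, S.le_max' h hh⟩)
      (Nat.card_Icc _ _).le
  have h1 := (hmem _ (S.min'_mem hne)).1
  have h2 := (hmem _ (S.max'_mem hne)).2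
  have h3 : S.min' hne ≤ S.max' hne := S.min'_le _ (S.max'_mem hne)
  have h4 : ((2 ^ a : ℕ) : ℝ) * ((S.max' hne : ℝ) - S.min' hne) ≤ M := by
    have h1' : ((M * K : ℕ) : ℝ) ≤ ((2 ^ a * S.min' hne : ℕ) : ℝ) := Nat.cast_le.2 h1
    have h2' : ((2 ^ a * S.max' hne : ℕ) : ℝ) ≤ ((M * K + M : ℕ) : ℝ) := Nat.cast_le.2 h2.le
    push_cast at h1' h2' ⊢
    linarith
  refine (Nat.cast_le.2 hle).trans ?_
  rw [Nat.cast_sub (by omega)]
  push_cast at h4 ⊢
  have h5 : (S.max' hne : ℝ) - S.min' hne ≤ M / 2 ^ a := by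
    rw [le_div_iff₀ (by positivity)]
    linarith
  linarith

/-- **The sum over powers of two is rarely near its length.** -/
theorem card_large_powSum_le {σ : ℝ} (hσ : 0 < σ) : ∃ η : ℝ, 0 < η ∧ η ≤ 1 / 2 ∧ ∀ L M : ℕ, 1 ≤ L → 2 ^ L ≤ M →
    (((range M).filter fun h : ℕ => (1 - η) * L < ‖powSum L ((h : ℝ) / M)‖).card : ℝ) ≤
      8 * Real.exp (σ * L) * M / (2 ^ L : ℕ) := by
  obtain ⟨y, hy⟩ : ∃ y : ℝ, y = min 1 (σ / 2) := ⟨_, rfl⟩
  have hy0 : 0 < y := hy ▸ lt_min one_pos (half_pos hσ)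
  have hy1 : y ≤ 1 := hy ▸ min_le_left _ _
  have hly : 0 ≤ -Real.log y := neg_nonneg.2 (Real.log_nonpos hy0.le hy1)
  obtain ⟨η, hη⟩ : ∃ η : ℝ, η = min (1 / 2) (σ / 2 / (8 * (-Real.log y + 1))) := ⟨_, rfl⟩
  have hη0 : 0 < η := hη ▸ lt_min (by norm_num) (by positivity)
  refine ⟨η, hη0, hη ▸ min_le_left _ _, fun L M hL hLM => ?_⟩
  have hM : 0 < M := lt_of_lt_of_le (by positivity) hLM
  obtain ⟨B, hB⟩ : ∃ B, B = (range M).filter fun h : ℕ => (1 - η) * L < ‖powSum L ((h : ℝ) / M)‖ := ⟨_, rfl⟩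
  obtain ⟨F, hF⟩ : ∃ F, F = (range 4) ×ˢ ((Icc 1 (L - 1)).powerset.filter fun T => (T.card : ℝ) ≤ 8 * η * L) :=
    ⟨_, rfl⟩
  have hmap : ∀ h ∈ B, (leadDigits M h 2, digitChanges L M h) ∈ F := fun h hh => by
    rw [hB, mem_filter, mem_range] at hh
    rw [hF, mem_product, mem_range, mem_filter, mem_powerset]
    refine ⟨(Nat.div_lt_iff_lt_mul hM).2 ((Nat.mul_lt_mul_left (by norm_num)).2 hh.1), filter_subset _ _, ?_⟩
    linarith [card_digitChanges_le hM L h, hh.2]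
  have hfib : ∀ k ∈ F, ((B.filter fun h => (leadDigits M h 2, digitChanges L M h) = k).card : ℝ) ≤
      2 * (M : ℝ) / (2 ^ L : ℕ) := fun k _ => by
    rcases (B.filter fun h => (leadDigits M h 2, digitChanges L M h) = k).eq_empty_or_nonempty with h0 | ⟨h₀, hh₀⟩
    · rw [h0, card_empty, Nat.cast_zero]; positivity
    refine (Nat.cast_le.2 (card_le_card (t := (range M).filter fun h => leadDigits M h (L + 1) =
      leadDigits M h₀ (L + 1)) fun h hh => ?_)).trans ((card_cell_le hM (L + 1) _).trans ?_)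
    · rw [mem_filter, hB, mem_filter] at hh hh₀
      rw [mem_filter]
      have e := hh.2.trans hh₀.2.symm
      rw [Prod.mk.injEq] at e
      exact ⟨hh.1.1, leadDigits_ext e.1 e.2 (by omega) le_rfl⟩
    · have h1 : (1 : ℝ) ≤ (M : ℝ) / (2 ^ L : ℕ) := by
        rw [one_le_div (by positivity)]
        exact_mod_cast hLM
      have h2 : (M : ℝ) / (2 ^ (L + 1) : ℕ) ≤ (M : ℝ) / (2 ^ L : ℕ) := div_le_div_of_nonneg_left
        (Nat.cast_nonneg M) (by positivity) (Nat.cast_le.2 (Nat.pow_le_pow_right two_pos (Nat.le_succ L)))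
      rw [mul_div_assoc]
      linarith
  rw [← hB]
  have hcard : (B.card : ℝ) ≤ (F.card : ℝ) * (2 * (M : ℝ) / (2 ^ L : ℕ)) := by
    rw [card_eq_sum_card_fiberwise (f := fun h => (leadDigits M h 2, digitChanges L M h)) (t := F)
      fun h hh => mem_coe.2 (hmap h (mem_coe.1 hh)), Nat.cast_sum, ← nsmul_eq_mul]
    exact sum_le_card_nsmul _ _ _ hfib
  refine hcard.trans ?_
  have hFc : (F.card : ℝ) ≤ 4 * Real.exp (σ * L) := by
    rw [hF, card_product, card_range, Nat.cast_mul, Nat.cast_ofNat]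
    refine mul_le_mul_of_nonneg_left ((card_small_sets_le _ hy0 hy1).trans ?_) (by norm_num)
    rw [Nat.card_Icc, Real.rpow_def_of_pos hy0]
    have h1 : (1 + y) ^ (L - 1 + 1 - 1) ≤ Real.exp (y * L) := by
      rw [mul_comm y, Real.exp_nat_mul]
      refine (pow_le_pow_right₀ (by linarith) (by omega : L - 1 + 1 - 1 ≤ L)).trans
        (pow_le_pow_left₀ (by linarith) (by linarith [Real.add_one_le_exp y]) L)
    refine (mul_le_mul_of_nonneg_right h1 (Real.exp_pos _).le).trans ?_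
    rw [← Real.exp_add, Real.exp_le_exp]
    have h2 : η * (8 * (-Real.log y + 1)) ≤ σ / 2 := by
      rw [← le_div_iff₀ (by linarith)]
      exact hη ▸ min_le_right _ _
    have h3 : y ≤ σ / 2 := hy ▸ min_le_right _ _
    have h4 := mul_le_mul_of_nonneg_right h2 (Nat.cast_nonneg (α := ℝ) L)
    have h5 := mul_le_mul_of_nonneg_right h3 (Nat.cast_nonneg (α := ℝ) L)
    have h6 : 0 ≤ η * L := by positivity
    linarith
  refine (mul_le_mul_of_nonneg_right hFc (by positivity)).trans (le_of_eq ?_)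
  ring

end FA.LinnikPowersTwo

end
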